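import Mathlib.MeasureTheory.Measure.Haar.Unique
import Mathlib.MeasureTheory.Function.L2Space
import Mathlib.MeasureTheory.Function.ContinuousMapDense
import Mathlib.MeasureTheory.Group.Integral
import Mathlib.MeasureTheory.Integral.Prod
import Mathlib.Topology.ContinuousMap.Bounded.ArzelaAscoli
import Mathlib.Topology.ContinuousMap.Compact
import Mathlib.Analysis.Normed.Operator.Compact.Basic
import Mathlib.Analysis.InnerProductSpace.Adjoint
import Mathlib.Analysis.Complex.Basic

/-!
# Convolution operators on a compact group

The Haar probability measure of a compact group is invariant under both translations and inversion.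
Convolution by a continuous kernel maps square integrable functions to continuous functions
compactly (Arzela-Ascoli), is symmetric for a symmetric kernel and commutes with right translations.
-/

set_option autoImplicit false
set_option linter.unusedSectionVars false
set_option linter.style.haveILetI false

noncomputable section

open MeasureTheory MeasureTheory.Measure Topology Filter
open scoped ComplexConjugate

namespace FA.PeterWeyl

variable {G : Type*} [TopologicalSpace G] [Group G] [IsTopologicalGroup G] [CompactSpace G]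
  [T2Space G] [MeasurableSpace G] [BorelSpace G]

/-! ### The Haar measure -/

/-- A left invariant probability measure on a compact group is a Haar measure. -/
theorem isHaarMeasure_of_invariant (μ : Measure G) [IsMulLeftInvariant μ]
    [IsProbabilityMeasure μ] : IsHaarMeasure μ := by
  set K₀ : TopologicalSpace.PositiveCompacts G := ⟨⟨Set.univ, isCompact_univ⟩, by simp⟩
  have h := isMulInvariant_eq_smul_of_compactSpace μ (haarMeasure K₀)
  have hu : (haarMeasure K₀) Set.univ = 1 := haarMeasure_self (K₀ := K₀)
  have hc := congrArg (fun ν : Measure G => ν Set.univ) h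
  simp only [measure_univ, Measure.smul_apply, hu, ENNReal.smul_def, smul_eq_mul, mul_one,
    ENNReal.one_eq_coe] at hc
  rw [h, ← hc, one_smul]
  infer_instance

/-- Two left invariant probability measures on a compact group coincide. -/
theorem invariant_measure_unique (μ' μ : Measure G) [IsMulLeftInvariant μ]
    [IsProbabilityMeasure μ] [IsMulLeftInvariant μ'] [IsProbabilityMeasure μ'] : μ' = μ := by
  haveI := isHaarMeasure_of_invariant μ
  haveI := isHaarMeasure_of_invariant μ'
  exact isHaarMeasure_eq_of_isProbabilityMeasure μ' μ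

variable (μ : Measure G) [IsMulLeftInvariant μ] [IsProbabilityMeasure μ]

/-- **A compact group is unimodular.** -/
theorem isMulRightInvariant_compact : IsMulRightInvariant μ := by
  refine ⟨fun g => ?_⟩
  haveI : IsProbabilityMeasure (map (· * g) μ) :=
    Measure.isProbabilityMeasure_map (continuous_mul_const g).measurable.aemeasurable
  haveI : IsMulLeftInvariant (map (· * g) μ) := isMulLeftInvariant_map_mul_right g
  exact invariant_measure_unique _ μ

/-- **The Haar measure of a compact group is invariant under inversion.** -/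
theorem isInvInvariant_compact : IsInvInvariant μ := by
  haveI := isMulRightInvariant_compact μ
  haveI : IsProbabilityMeasure μ.inv :=
    Measure.isProbabilityMeasure_map continuous_inv.measurable.aemeasurable
  exact ⟨invariant_measure_unique _ μ⟩

theorem integrable_cont {E : Type*} [NormedAddCommGroup E] {f : G → E} (hf : Continuous f) :
    Integrable f μ :=
  hf.integrable_of_hasCompactSupport (HasCompactSupport.of_compactSpace f)

/-! ### Square integrable functions -/

/-- The inclusion of the continuous functions in `L²`. -/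
def toL2 : C(G, ℂ) →L[ℂ] Lp ℂ 2 μ := ContinuousMap.toLp 2 μ ℂ

theorem inner_toL2 (f g : C(G, ℂ)) :
    inner ℂ (toL2 μ f) (toL2 μ g) = ∫ x, conj (f x) * g x ∂μ := by
  rw [toL2, ContinuousMap.inner_toLp]
  exact integral_congr_ae (Eventually.of_forall fun x => mul_comm _ _)

theorem denseRange_toL2 : DenseRange (toL2 μ) :=
  ContinuousMap.toLp_denseRange ℂ μ ℂ ENNReal.ofNat_ne_top

theorem toL2_injective : Function.Injective (toL2 μ) := by
  haveI := isHaarMeasure_of_invariant μ
  exact ContinuousMap.toLp_injective μ

/-! ### Convolution -/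

/-- The kernel `x ↦ (y ↦ conj (f (x y⁻¹)))`. -/
def kerC (f : C(G, ℂ)) : C(G, C(G, ℂ)) :=
  ContinuousMap.curry ⟨fun p : G × G => conj (f (p.1 * p.2⁻¹)),
    Complex.continuous_conj.comp (f.continuous.comp (continuous_fst.mul continuous_snd.inv))⟩

theorem kerC_apply (f : C(G, ℂ)) (x y : G) : kerC f x y = conj (f (x * y⁻¹)) := rfl

/-- The kernel with values in `L²`. -/
def kerL (f : C(G, ℂ)) : C(G, Lp ℂ 2 μ) :=
  ⟨fun x => toL2 μ (kerC f x), (toL2 μ).continuous.comp (kerC f).continuous⟩

/-- Convolution of a square integrable function by `f`. -/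
def convC (f : C(G, ℂ)) : Lp ℂ 2 μ →L[ℂ] C(G, ℂ) :=
  LinearMap.mkContinuous
    { toFun := fun u => ⟨fun x => inner ℂ (kerL μ f x) u,
        (kerL μ f).continuous.inner continuous_const⟩
      map_add' := fun u v => ContinuousMap.ext fun x => by simp [inner_add_right]
      map_smul' := fun c u => ContinuousMap.ext fun x => by simp [inner_smul_right] } ‖kerL μ f‖
    fun u => (ContinuousMap.norm_le _ (by positivity)).2 fun x =>
      (norm_inner_le_norm (𝕜 := ℂ) _ _).trans
        (mul_le_mul_of_nonneg_right ((kerL μ f).norm_coe_le_norm x) (norm_nonneg _))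

theorem convC_apply (f : C(G, ℂ)) (u : Lp ℂ 2 μ) (x : G) :
    convC μ f u x = inner ℂ (kerL μ f x) u := rfl

theorem convC_toL2 (f u : C(G, ℂ)) (x : G) :
    convC μ f (toL2 μ u) x = ∫ y, f (x * y⁻¹) * u y ∂μ := by
  show inner ℂ (toL2 μ (kerC f x)) (toL2 μ u) = _
  rw [inner_toL2]
  exact integral_congr_ae (Eventually.of_forall fun y => by simp [kerC_apply])

/-- **Convolution is compact**: the image of the ball is bounded and equicontinuous. -/
theorem isCompactOperator_convC (f : C(G, ℂ)) : IsCompactOperator (convC μ f) := by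
  let e := ContinuousMap.linearIsometryBoundedOfCompact G ℂ ℂ
  set A : Set (BoundedContinuousFunction G ℂ) :=
    (fun u => e (convC μ f u)) '' Metric.closedBall 0 1
  have hA : IsCompact (closure A) := by
    refine BoundedContinuousFunction.arzela_ascoli (Metric.closedBall 0 ‖kerL μ f‖)
      (isCompact_closedBall _ _) A ?_ ?_
    · rintro _ x ⟨u, hu, rfl⟩
      rw [mem_closedBall_zero_iff] at hu ⊢
      calc ‖e (convC μ f u) x‖ = ‖convC μ f u x‖ := rfl
        _ ≤ ‖kerL μ f x‖ * ‖u‖ := by
            rw [convC_apply]
            exact norm_inner_le_norm (𝕜 := ℂ) _ _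
        _ ≤ ‖kerL μ f‖ * 1 :=
            mul_le_mul ((kerL μ f).norm_coe_le_norm x) hu (norm_nonneg _) (norm_nonneg _)
        _ = ‖kerL μ f‖ := mul_one _
    · intro x₀
      rw [Metric.equicontinuousAt_iff_right]
      intro ε hε
      filter_upwards [Metric.tendsto_nhds.1 ((kerL μ f).continuous.tendsto x₀) ε hε] with x hx
      rintro ⟨_, u, hu, rfl⟩
      show dist (convC μ f u x₀) (convC μ f u x) < ε
      rw [mem_closedBall_zero_iff] at hu
      refine lt_of_le_of_lt ?_ hx
      rw [dist_eq_norm, dist_eq_norm, convC_apply, convC_apply, ← inner_sub_left, norm_sub_rev]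
      exact (norm_inner_le_norm (𝕜 := ℂ) _ _).trans (mul_le_of_le_one_right (norm_nonneg _) hu)
  refine (isCompactOperator_iff_image_closedBall_subset_compact _ one_pos).2
    ⟨e.symm '' closure A, hA.image e.symm.continuous, ?_⟩
  rintro _ ⟨u, hu, rfl⟩
  exact ⟨e (convC μ f u), subset_closure ⟨u, hu, rfl⟩, e.symm_apply_apply _⟩

/-- Convolution as an operator on `L²`. -/
def convT (f : C(G, ℂ)) : Lp ℂ 2 μ →L[ℂ] Lp ℂ 2 μ := toL2 μ ∘L convC μ f

/-- Convolution as an operator on the continuous functions. -/
def convP (f : C(G, ℂ)) : C(G, ℂ) →L[ℂ] C(G, ℂ) := convC μ f ∘L toL2 μ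

theorem convT_apply (f : C(G, ℂ)) (u : Lp ℂ 2 μ) : convT μ f u = toL2 μ (convC μ f u) := rfl

theorem convP_apply (f u : C(G, ℂ)) : convP μ f u = convC μ f (toL2 μ u) := rfl

theorem isCompactOperator_convT (f : C(G, ℂ)) : IsCompactOperator (convT μ f) :=
  (isCompactOperator_convC μ f).clm_comp (toL2 μ)

theorem isCompactOperator_convP (f : C(G, ℂ)) : IsCompactOperator (convP μ f) :=
  (isCompactOperator_convC μ f).comp_clm (toL2 μ)

/-- **A symmetric kernel gives a symmetric operator.** -/
theorem isSymmetric_convT {f : C(G, ℂ)} (hf : ∀ z, conj (f z⁻¹) = f z) :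
    (convT μ f : Lp ℂ 2 μ →ₗ[ℂ] Lp ℂ 2 μ).IsSymmetric := by
  intro a b
  show inner ℂ (convT μ f a) b = inner ℂ a (convT μ f b)
  refine DenseRange.induction_on₂ (denseRange_toL2 μ) ?_ (fun u v => ?_) a b
  · exact isClosed_eq (((convT μ f).continuous.comp continuous_fst).inner continuous_snd)
      (continuous_fst.inner ((convT μ f).continuous.comp continuous_snd))
  · have hc : ∀ x y : G, conj (f (x * y⁻¹)) = f (y * x⁻¹) := fun x y => by
      rw [show x * y⁻¹ = (y * x⁻¹)⁻¹ by rw [mul_inv_rev, inv_inv], hf]
    simp only [convT_apply, inner_toL2, convC_toL2, ← integral_conj, ← integral_mul_const,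
      ← integral_const_mul, map_mul, hc]
    rw [integral_integral_swap_of_hasCompactSupport
      (f := fun x y => f (y * x⁻¹) * conj (u y) * v x)
      (by simp only [Function.uncurry_def]; fun_prop) (HasCompactSupport.of_compactSpace _)]
    exact integral_congr_ae (Eventually.of_forall fun y =>
      integral_congr_ae (Eventually.of_forall fun x => by ring))

/-! ### Translations -/

/-- The right translation `φ ↦ φ (· g)`. -/
def rmap (g : G) : C(G, ℂ) →L[ℂ] C(G, ℂ) :=
  LinearMap.mkContinuous
    { toFun := fun u => u.comp ⟨fun x => x * g, continuous_mul_const g⟩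
      map_add' := fun _ _ => rfl
      map_smul' := fun _ _ => rfl } 1 fun u => by
      rw [one_mul]
      exact (ContinuousMap.norm_le _ (norm_nonneg u)).2 fun x => u.norm_coe_le_norm _

theorem rmap_apply (g : G) (u : C(G, ℂ)) (x : G) : rmap g u x = u (x * g) := rfl

theorem continuous_rmap (u : C(G, ℂ)) : Continuous fun g : G => rmap g u :=
  ContinuousMap.continuous_of_continuous_uncurry _
    (u.continuous.comp (continuous_snd.mul continuous_fst))

/-- **Convolution commutes with right translations.** -/
theorem convP_rmap (f u : C(G, ℂ)) (g : G) : convP μ f (rmap g u) = rmap g (convP μ f u) := by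
  haveI := isMulRightInvariant_compact μ
  ext x
  rw [rmap_apply, convP_apply, convP_apply, convC_toL2, convC_toL2,
    ← integral_mul_right_eq_self (fun y => f (x * g * y⁻¹) * u y) g]
  refine integral_congr_ae (Eventually.of_forall fun y => ?_)
  show f (x * y⁻¹) * u (y * g) = f (x * g * (y * g)⁻¹) * u (y * g)
  rw [mul_inv_rev, mul_assoc x g, mul_inv_cancel_left]

/-- **The eigenspaces are finite dimensional.** -/
theorem finiteDimensional_eigenspace {X : Type*} [NormedAddCommGroup X] [NormedSpace ℂ X]
    {T : X →L[ℂ] X} (hT : IsCompactOperator T) {z : ℂ} (hz : z ≠ 0) :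
    FiniteDimensional ℂ (Module.End.eigenspace (T : X →ₗ[ℂ] X) z) := by
  set V := Module.End.eigenspace (T : X →ₗ[ℂ] X) z
  have hmem : ∀ v : X, v ∈ V ↔ T v = z • v := fun v => Module.End.mem_eigenspace_iff
  have hV : IsClosed (V : Set X) := by
    have : (V : Set X) = {v | T v = z • v} := Set.ext hmem
    rw [this]
    exact isClosed_eq T.continuous (continuous_const_smul z)
  have hinv : ∀ v ∈ V, (T : X →ₗ[ℂ] X) v ∈ V := fun v hv => by
    show T v ∈ V
    rw [(hmem v).1 hv]
    exact V.smul_mem z hv
  have hr : IsCompactOperator ((T : X →ₗ[ℂ] X).restrict hinv) := hT.restrict hinv hV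
  have he : ((z⁻¹ : ℂ) • ⇑((T : X →ₗ[ℂ] X).restrict hinv)) = (_root_.id : V → V) := by
    funext v
    refine Subtype.ext ?_
    show z⁻¹ • T (v : X) = (v : X)
    rw [(hmem _).1 v.2, inv_smul_smul₀ hz]
  haveI : LocallyCompactSpace V :=
    (isCompactOperator_id_iff_locallyCompactSpace (E := V)).1 (he ▸ hr.smul z⁻¹)
  exact FiniteDimensional.of_locallyCompactSpace ℂ

end FA.PeterWeyl

end
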