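import Fermat.Agent.PeterWeyl.Main
import Mathlib.Analysis.InnerProductSpace.Projection.Submodule
import Mathlib.MeasureTheory.Integral.Bochner.Basic

/-!
# Unitary representations of compact groups on Hilbert spaces

For `v` fixed, `u ↦ ∫ u(g⁻¹) ρ(g)v` carries finite-dimensional invariant spaces of functions to
finite-dimensional invariant subspaces. Hence the irreducible finite-dimensional subrepresentations
span a dense subspace and the topologically irreducible representations are finite-dimensional.
-/

set_option autoImplicit false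
set_option linter.unusedSectionVars false
set_option linter.style.haveILetI false

noncomputable section

open MeasureTheory MeasureTheory.Measure Topology Filter
open scoped ComplexConjugate InnerProductSpace

namespace FA.PeterWeyl

variable {G : Type*} [TopologicalSpace G] [Group G] [IsTopologicalGroup G] [CompactSpace G]
  [T2Space G] {H : Type*} [NormedAddCommGroup H] [InnerProductSpace ℂ H] [CompleteSpace H]
  {ρ : G →* (H →L[ℂ] H)}

section measure

variable [MeasurableSpace G] [BorelSpace G] (μ : Measure G) [IsMulLeftInvariant μ]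
  [IsProbabilityMeasure μ]

theorem continuous_orbit_integrand (hρ : IsUnitaryRep ρ) (v : H) (u : C(G, ℂ)) :
    Continuous fun g => u g⁻¹ • ρ g v :=
  (u.continuous.comp continuous_inv).smul (hρ.continuous_apply v)

/-- `u ↦ ∫ u(g⁻¹) ρ(g)v`. -/
def orbitMap (hρ : IsUnitaryRep ρ) (v : H) : C(G, ℂ) →L[ℂ] H :=
  LinearMap.mkContinuous
    { toFun := fun u => ∫ g, u g⁻¹ • ρ g v ∂μ
      map_add' := fun u w => by
        rw [← integral_add (integrable_cont μ (continuous_orbit_integrand hρ v u))
          (integrable_cont μ (continuous_orbit_integrand hρ v w))]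
        exact integral_congr_ae (Eventually.of_forall fun g => add_smul _ _ _)
      map_smul' := fun c u => by
        rw [RingHom.id_apply, ← integral_smul]
        exact integral_congr_ae (Eventually.of_forall fun g => smul_assoc c (u g⁻¹) _) } ‖v‖
    fun u => by
      refine (norm_integral_le_of_norm_le_const (C := ‖u‖ * ‖v‖)
        (Eventually.of_forall fun g => ?_)).trans_eq ?_
      · rw [norm_smul, hρ.norm_map]
        exact mul_le_mul_of_nonneg_right (u.norm_coe_le_norm _) (norm_nonneg _)
      · rw [probReal_univ, mul_one, mul_comm]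

theorem orbitMap_apply (hρ : IsUnitaryRep ρ) (v : H) (u : C(G, ℂ)) :
    orbitMap μ hρ v u = ∫ g, u g⁻¹ • ρ g v ∂μ := rfl

/-- The map intertwines right translation with the representation. -/
theorem rep_orbitMap (hρ : IsUnitaryRep ρ) (v : H) (h : G) (u : C(G, ℂ)) :
    ρ h (orbitMap μ hρ v u) = orbitMap μ hρ v (rmap h u) := by
  rw [orbitMap_apply, orbitMap_apply,
    ← (ρ h).integral_comp_comm (integrable_cont μ (continuous_orbit_integrand hρ v u)),
    ← integral_mul_left_eq_self (fun g => rmap h u g⁻¹ • ρ g v) h]
  refine integral_congr_ae (Eventually.of_forall fun g => ?_)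
  show ρ h (u g⁻¹ • ρ g v) = rmap h u (h * g)⁻¹ • ρ (h * g) v
  rw [map_smul, rmap_apply, mul_inv_rev, inv_mul_cancel_right, rep_mul_apply]

include μ in
/-- **Nothing is orthogonal to all finite-dimensional subrepresentations.** -/
theorem eq_zero_of_orthogonal_irredSup (hρ : IsUnitaryRep ρ) {v : H}
    (hv : v ∈ (irredSup ρ)ᗮ) : v = 0 := by
  have hle : finInv G ≤ (irredSup ρ).comap (orbitMap μ hρ v : C(G, ℂ) →ₗ[ℂ] H) := by
    refine iSup_le fun ⟨V, hfin, hinv⟩ => Submodule.map_le_iff_le_comap.1 ?_
    haveI : FiniteDimensional ℂ V := hfin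
    refine hρ.finInvariant_le_irredSup _ ?_
    rintro g _ ⟨u, hu, rfl⟩
    exact ⟨rmap g u, hinv g u hu, (rep_orbitMap μ hρ v g u).symm⟩
  have hzero : ∀ u : C(G, ℂ), ⟪orbitMap μ hρ v u, v⟫_ℂ = 0 := fun u =>
    congrFun (Continuous.ext_on dense_finInv (g := fun _ => (0 : ℂ))
      ((orbitMap μ hρ v).continuous.inner continuous_const) continuous_const
      fun u hu => hv _ (hle hu)) u
  haveI := isHaarMeasure_of_invariant μ
  have hc : Continuous fun g => ⟪v, ρ g v⟫_ℂ := continuous_const.inner (hρ.continuous_apply v)
  let u₀ : C(G, ℂ) := ⟨fun g => conj ⟪v, ρ g⁻¹ v⟫_ℂ,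
    Complex.continuous_conj.comp (hc.comp continuous_inv)⟩
  have h := congrArg conj (hzero u₀)
  rw [inner_conj_symm, map_zero, orbitMap_apply,
    ← integral_inner (integrable_cont μ (continuous_orbit_integrand hρ v u₀))] at h
  simp only [inner_smul_right, u₀, ContinuousMap.coe_mk, inv_inv, Complex.conj_mul',
    ← Complex.ofReal_pow, integral_complex_ofReal, Complex.ofReal_eq_zero] at h
  by_contra hne
  refine (Continuous.integral_pos_of_hasCompactSupport_nonneg_nonzero (μ := μ) (x := (1 : G))
    (hc.norm.pow 2) (HasCompactSupport.of_compactSpace _) (fun g => sq_nonneg _) ?_).ne' h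
  show ‖⟪v, ρ 1 v⟫_ℂ‖ ^ 2 ≠ 0
  rw [rep_one_apply]
  exact pow_ne_zero _ (norm_ne_zero_iff.2 fun e => hne (inner_self_eq_zero.1 e))

end measure

/-- **The irreducible finite-dimensional subrepresentations span a dense subspace.** -/
theorem dense_irredSup (hρ : IsUnitaryRep ρ) : Dense (irredSup ρ : Set H) := by
  letI : MeasurableSpace G := borel G
  haveI : BorelSpace G := ⟨rfl⟩
  let K₀ : TopologicalSpace.PositiveCompacts G := ⟨⟨Set.univ, isCompact_univ⟩, by simp⟩
  haveI : IsProbabilityMeasure (haarMeasure K₀) := ⟨haarMeasure_self (K₀ := K₀)⟩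
  rw [Submodule.dense_iff_topologicalClosure_eq_top, Submodule.topologicalClosure_eq_top_iff]
  exact (Submodule.eq_bot_iff _).2 fun v hv =>
    eq_zero_of_orthogonal_irredSup (haarMeasure K₀) hρ hv

/-- **A topologically irreducible unitary representation is finite-dimensional.** -/
theorem finiteDimensional_of_irreducible (hρ : IsUnitaryRep ρ)
    (hirr : ∀ V : Submodule ℂ H, IsClosed (V : Set H) → IsInvariant ρ V → V = ⊥ ∨ V = ⊤) :
    FiniteDimensional ℂ H := by
  by_cases hH : ∀ V : Submodule ℂ H, ¬ IsIrreducibleSub ρ V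
  · have hbot : irredSup ρ = ⊥ := le_bot_iff.1 (iSup_le fun ⟨V, hV⟩ => absurd hV (hH V))
    have hall : ∀ v : H, v = 0 := fun v => by
      have h := dense_irredSup hρ v
      rw [hbot, Submodule.bot_coe, closure_singleton] at h
      exact h
    haveI : Subsingleton H := ⟨fun a b => by rw [hall a, hall b]⟩
    infer_instance
  · push Not at hH
    obtain ⟨V, hV⟩ := hH
    haveI := hV.finiteDimensional
    rcases hirr V V.closed_of_finiteDimensional hV.invariant with h | h
    · exact absurd h hV.ne_bot
    · exact Module.Finite.equiv (LinearEquiv.ofTop V h)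

end FA.PeterWeyl

end
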