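import Fermat.Agent.PeterWeyl.Main
import Mathlib.Data.Matrix.Block
import Mathlib.Topology.Homeomorph.Lemmas
import Mathlib.Analysis.CStarAlgebra.Matrix

/-!
# Compact groups without small subgroups are linear

A compact group without small subgroups embeds into a unitary group: finitely many irreducible
representations already have a joint kernel inside the given neighbourhood, hence trivial, and their
block diagonal sum is faithful. The identity representation of `U(2)` is irreducible.
-/

set_option autoImplicit false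
set_option linter.unusedSectionVars false
set_option linter.style.haveILetI false

noncomputable section

open Topology Filter
open scoped Matrix

namespace FA.PeterWeyl

variable {G : Type*} [TopologicalSpace G] [Group G] [IsTopologicalGroup G] [CompactSpace G]
  [T2Space G]

/-- Each element other than `1` is moved by an irreducible representation. -/
theorem exists_rep_ne_one {x : G} (hx : x ≠ 1) :
    ∃ (n : ℕ) (π : G →* Matrix.unitaryGroup (Fin n) ℂ),
      Continuous π ∧ IsIrreducibleMat π ∧ π x ≠ 1 := by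
  obtain ⟨f, ⟨n, π, hc, hirr, i, j, hf⟩, hne⟩ := exists_coeff_ne hx
  exact ⟨n, π, hc, hirr, fun e => hne (by rw [hf, hf, e, map_one])⟩

/-- **A compact group without small subgroups is a group of unitary matrices.** -/
theorem exists_embedding_of_no_small_subgroups {U : Set G} (hU : U ∈ 𝓝 (1 : G))
    (h : ∀ K : Subgroup G, (K : Set G) ⊆ U → K = ⊥) :
    ∃ (N : ℕ) (π : G →* Matrix.unitaryGroup (Fin N) ℂ), IsClosedEmbedding π := by
  classical
  have hne : ∀ x : {x : G // x ≠ 1}, ∃ (n : ℕ) (π : G →* Matrix.unitaryGroup (Fin n) ℂ),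
      Continuous π ∧ IsIrreducibleMat π ∧ π x ≠ 1 := fun x => exists_rep_ne_one x.2
  choose n π hc hirr hπ using hne
  obtain ⟨t, ht⟩ := (isOpen_interior (s := U)).isClosed_compl.isCompact.elim_finite_subcover
    (fun x => {y | π x y ≠ 1}) (fun x => isOpen_ne_fun (hc x) continuous_const) fun y hy =>
      Set.mem_iUnion.2 ⟨⟨y, fun e => hy (e ▸ mem_interior_iff_mem_nhds.2 hU)⟩, hπ _⟩
  have hker : (⨅ x ∈ t, (π x).ker) = ⊥ := by
    refine h _ fun y hy => interior_subset (by_contra fun hy' => ?_)
    obtain ⟨x, hx⟩ := Set.mem_iUnion.1 (ht hy')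
    obtain ⟨hxt, hxy⟩ := Set.mem_iUnion.1 hx
    exact hxy (Subgroup.mem_iInf.1 (Subgroup.mem_iInf.1 hy x) hxt)
  let ι := Σ x : t, Fin (n x.1)
  let e : ι ≃ Fin (Fintype.card ι) := Fintype.equivFin ι
  let B : G → Matrix ι ι ℂ := fun g =>
    Matrix.blockDiagonal' fun x : t => (π x.1 g : Matrix (Fin (n x.1)) (Fin (n x.1)) ℂ)
  have hB1 : B 1 = 1 := by
    simp only [B, map_one]
    exact Matrix.blockDiagonal'_one
  have hBmul : ∀ g k, B (g * k) = B g * B k := fun g k => by
    simp only [B, map_mul, Matrix.UnitaryGroup.mul_val]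
    exact Matrix.blockDiagonal'_mul _ _
  have hBstar : ∀ g, star (B g) = B g⁻¹ := fun g => by
    simp only [B, map_inv, Matrix.star_eq_conjTranspose, Matrix.blockDiagonal'_conjTranspose]
    rfl
  let Φ : G →* Matrix.unitaryGroup (Fin (Fintype.card ι)) ℂ :=
    { toFun := fun g => ⟨Matrix.reindex e e (B g), Matrix.mem_unitaryGroup_iff.2 (by
        rw [Matrix.star_eq_conjTranspose, Matrix.reindex_apply, Matrix.conjTranspose_submatrix,
          Matrix.submatrix_mul_equiv, ← Matrix.star_eq_conjTranspose, hBstar, ← hBmul,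
          mul_inv_cancel, hB1, Matrix.submatrix_one_equiv])⟩
      map_one' := Subtype.ext (by simp [hB1])
      map_mul' := fun g k => Subtype.ext (by
        simp only [Matrix.UnitaryGroup.mul_val, Matrix.reindex_apply, hBmul,
          Matrix.submatrix_mul_equiv]) }
  have hinj : Function.Injective Φ := by
    refine (injective_iff_map_eq_one Φ).2 fun g hg => ?_
    have hB : B g = 1 := by
      have h0 : Matrix.reindex e e (B g) = 1 := congrArg Subtype.val hg
      have h1 := congrArg (Matrix.reindex e.symm e.symm) h0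
      simpa [Matrix.submatrix_submatrix] using h1
    have hmem : g ∈ ⨅ x ∈ t, (π x).ker := by
      refine Subgroup.mem_iInf.2 fun x => Subgroup.mem_iInf.2 fun hx => Subtype.ext ?_
      have h2 := congrFun (Matrix.blockDiagonal'_injective
        (hB.trans Matrix.blockDiagonal'_one.symm)) ⟨x, hx⟩
      exact h2
    rw [hker] at hmem
    exact Subgroup.mem_bot.1 hmem
  have hcont : Continuous Φ := by
    refine (continuous_matrix fun a b => ?_).subtype_mk _
    exact (continuous_apply_apply (e.symm a) (e.symm b)).comp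
      (Continuous.matrix_blockDiagonal' (continuous_pi fun x => continuous_subtype_val.comp (hc x.1)))
  exact ⟨_, Φ, hcont.isClosedEmbedding hinj⟩

/-! ### An example -/

/-- The unitary matrices form a compact topological group. -/
theorem unitaryGroup_compact_group (n : ℕ) :
    CompactSpace (Matrix.unitaryGroup (Fin n) ℂ) ∧
      IsTopologicalGroup (Matrix.unitaryGroup (Fin n) ℂ) := by
  constructor
  · refine isCompact_iff_compactSpace.1 ?_
    refine IsCompact.of_isClosed_subset (isCompact_univ_pi fun _ => isCompact_univ_pi fun _ =>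
      isCompact_closedBall (0 : ℂ) 1) ?_ fun A hA i _ j _ =>
        mem_closedBall_zero_iff.2 (entry_norm_bound_of_unitary hA i j)
    have e : (Matrix.unitaryGroup (Fin n) ℂ : Set (Matrix (Fin n) (Fin n) ℂ)) =
        {A | A * star A = 1} := Set.ext fun A => Matrix.mem_unitaryGroup_iff
    rw [e]
    exact isClosed_eq (continuous_id.mul continuous_star) continuous_const
  · have hinv : Continuous fun A : Matrix.unitaryGroup (Fin n) ℂ => A⁻¹ :=
      ((continuous_star.comp continuous_subtype_val).subtype_mk _)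
    exact { continuous_inv := hinv }

/-- The diagonal matrix `diag (1, -1)` as a unitary matrix. -/
def signMat : Matrix.unitaryGroup (Fin 2) ℂ :=
  ⟨!![1, 0; 0, -1], Matrix.mem_unitaryGroup_iff.2 (by
    ext i j; fin_cases i <;> fin_cases j <;> simp [Matrix.mul_apply, Matrix.star_apply])⟩

/-- The transposition as a unitary matrix. -/
def swapMat : Matrix.unitaryGroup (Fin 2) ℂ :=
  ⟨!![0, 1; 1, 0], Matrix.mem_unitaryGroup_iff.2 (by
    ext i j; fin_cases i <;> fin_cases j <;> simp [Matrix.mul_apply, Matrix.star_apply])⟩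

theorem signMat_swapMat_ne : signMat * swapMat ≠ swapMat * signMat := fun h => by
  have h1 := congrFun (congrFun (congrArg Subtype.val h) 0) 1
  simp [signMat, swapMat, Matrix.mul_apply] at h1
  norm_num at h1

/-- **The standard representation of `U(2)` is irreducible.** -/
theorem isIrreducibleMat_unitaryGroup_two :
    IsIrreducibleMat (MonoidHom.id (Matrix.unitaryGroup (Fin 2) ℂ)) := by
  refine ⟨two_pos, fun W hW => or_iff_not_imp_left.2 fun h0 => ?_⟩
  obtain ⟨v, hv, hv0⟩ := Submodule.exists_mem_ne_zero_of_ne_bot h0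
  have hd : ![v 0, -v 1] ∈ W := by
    have h := hW signMat v hv
    have e : (signMat : Matrix (Fin 2) (Fin 2) ℂ) *ᵥ v = ![v 0, -v 1] := by
      funext i; fin_cases i <;> simp [signMat, Matrix.mulVec, dotProduct]
    rwa [← e]
  have hs : ∀ w ∈ W, ![w 1, w 0] ∈ W := fun w hw => by
    have h := hW swapMat w hw
    have e : (swapMat : Matrix (Fin 2) (Fin 2) ℂ) *ᵥ w = ![w 1, w 0] := by
      funext i; fin_cases i <;> simp [swapMat, Matrix.mulVec, dotProduct]
    rwa [← e]
  have hbasis : ![(1 : ℂ), 0] ∈ W ∧ ![(0 : ℂ), 1] ∈ W := by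
    have h1 : ![v 0, 0] ∈ W := by
      have h := W.smul_mem (2 : ℂ)⁻¹ (W.add_mem hv hd)
      have e : (2 : ℂ)⁻¹ • (v + ![v 0, -v 1]) = ![v 0, 0] := by
        funext i; fin_cases i <;> simp [Matrix.vecHead, Matrix.vecTail] <;> ring
      rwa [← e]
    have h2 : ![0, v 1] ∈ W := by
      have h := W.smul_mem (2 : ℂ)⁻¹ (W.sub_mem hv hd)
      have e : (2 : ℂ)⁻¹ • (v - ![v 0, -v 1]) = ![0, v 1] := by
        funext i; fin_cases i <;> simp [Matrix.vecHead, Matrix.vecTail] <;> ring
      rwa [← e]
    have key : ∀ a : ℂ, a ≠ 0 → ![a, 0] ∈ W → ![(1 : ℂ), 0] ∈ W := fun a ha h => by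
      have h' := W.smul_mem a⁻¹ h
      have e : a⁻¹ • ![a, 0] = ![(1 : ℂ), 0] := by
        funext i; fin_cases i <;> simp [ha]
      rwa [← e]
    have he : ![(1 : ℂ), 0] ∈ W := by
      by_cases hv1 : v 0 = 0
      · have hv2 : v 1 ≠ 0 := fun h => hv0 (by funext i; fin_cases i <;> simp [hv1, h])
        exact key _ hv2 (by simpa using hs _ h2)
      · exact key _ hv1 h1
    exact ⟨he, by simpa using hs _ he⟩
  refine eq_top_iff.2 fun w _ => ?_
  have e : w = w 0 • ![(1 : ℂ), 0] + w 1 • ![(0 : ℂ), 1] := by
    funext i; fin_cases i <;> simp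
  rw [e]
  exact W.add_mem (W.smul_mem _ hbasis.1) (W.smul_mem _ hbasis.2)

end FA.PeterWeyl

end
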