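import Fermat.Agent.PeterWeyl.Defs
import Mathlib.LinearAlgebra.Matrix.Kronecker
import Mathlib.Data.Matrix.Block
import Mathlib.Logic.Equiv.Fin.Basic

/-!
# Operations on unitary matrix representations

Direct sums, Kronecker products and conjugates of unitary matrix representations, and the families
of unitary matrices compatible with intertwiners and Kronecker products used in Tannaka duality.
-/

set_option autoImplicit false
set_option linter.unusedSectionVars false

noncomputable section

open scoped Matrix Kronecker ComplexConjugate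

namespace FA.PeterWeyl

/-- Renumbering the indices of a unitary matrix. -/
def reindexHom {ι : Type*} [Fintype ι] [DecidableEq ι] {N : ℕ} (e : ι ≃ Fin N) :
    Matrix.unitaryGroup ι ℂ →* Matrix.unitaryGroup (Fin N) ℂ where
  toFun M := ⟨Matrix.reindex e e (M : Matrix ι ι ℂ), Matrix.mem_unitaryGroup_iff.2 (by
    rw [Matrix.star_eq_conjTranspose, Matrix.reindex_apply, Matrix.conjTranspose_submatrix,
      Matrix.submatrix_mul_equiv, ← Matrix.star_eq_conjTranspose,
      Matrix.mem_unitaryGroup_iff.1 M.2, Matrix.submatrix_one_equiv])⟩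
  map_one' := Subtype.ext (by simp)
  map_mul' A B := Subtype.ext (by
    simp only [Matrix.UnitaryGroup.mul_val, Matrix.reindex_apply, Matrix.submatrix_mul_equiv])

/-- The Kronecker product of two unitary matrices. -/
def kronHom (n m : ℕ) : Matrix.unitaryGroup (Fin n) ℂ × Matrix.unitaryGroup (Fin m) ℂ →*
    Matrix.unitaryGroup (Fin (n * m)) ℂ :=
  (reindexHom finProdFinEquiv).comp
    { toFun := fun p => ⟨(p.1 : Matrix (Fin n) (Fin n) ℂ) ⊗ₖ (p.2 : Matrix (Fin m) (Fin m) ℂ),
        Matrix.kronecker_mem_unitary p.1.2 p.2.2⟩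
      map_one' := Subtype.ext (Matrix.one_kronecker_one (α := ℂ))
      map_mul' := fun p q => Subtype.ext (Matrix.mul_kronecker_mul _ _ _ _) }

theorem kronHom_apply {n m : ℕ} (A : Matrix.unitaryGroup (Fin n) ℂ)
    (B : Matrix.unitaryGroup (Fin m) ℂ) (i j : Fin n) (k l : Fin m) :
    (kronHom n m (A, B) : Matrix (Fin (n * m)) (Fin (n * m)) ℂ) (finProdFinEquiv (i, k))
      (finProdFinEquiv (j, l)) =
      (A : Matrix (Fin n) (Fin n) ℂ) i j * (B : Matrix (Fin m) (Fin m) ℂ) k l := by
  simp [kronHom, reindexHom]

/-- The block sum of two unitary matrices. -/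
def sumHom (n m : ℕ) : Matrix.unitaryGroup (Fin n) ℂ × Matrix.unitaryGroup (Fin m) ℂ →*
    Matrix.unitaryGroup (Fin (n + m)) ℂ :=
  (reindexHom finSumFinEquiv).comp
    { toFun := fun p => ⟨Matrix.fromBlocks (p.1 : Matrix (Fin n) (Fin n) ℂ) 0 0
          (p.2 : Matrix (Fin m) (Fin m) ℂ), Matrix.mem_unitaryGroup_iff.2 (by
          rw [Matrix.star_eq_conjTranspose, Matrix.fromBlocks_conjTranspose,
            Matrix.fromBlocks_multiply]
          simp [← Matrix.star_eq_conjTranspose, Matrix.mem_unitaryGroup_iff.1 p.1.2,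
            Matrix.mem_unitaryGroup_iff.1 p.2.2, Matrix.fromBlocks_one])⟩
      map_one' := Subtype.ext Matrix.fromBlocks_one
      map_mul' := fun p q => Subtype.ext (by
        simp [Matrix.fromBlocks_multiply]) }

theorem sumHom_coe {n m : ℕ} (A : Matrix.unitaryGroup (Fin n) ℂ)
    (B : Matrix.unitaryGroup (Fin m) ℂ) :
    (sumHom n m (A, B) : Matrix (Fin (n + m)) (Fin (n + m)) ℂ) =
      Matrix.reindex finSumFinEquiv finSumFinEquiv (Matrix.fromBlocks
        (A : Matrix (Fin n) (Fin n) ℂ) 0 0 (B : Matrix (Fin m) (Fin m) ℂ)) := rfl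

/-- The entrywise conjugate. -/
def conjHom (n : ℕ) : Matrix.unitaryGroup (Fin n) ℂ →* Matrix.unitaryGroup (Fin n) ℂ where
  toFun A := Matrix.UnitaryGroup.map_star A
  map_one' := Subtype.ext (by simp [Matrix.map_one])
  map_mul' A B := Subtype.ext (by
    ext i j
    simp [Matrix.mul_apply, star_sum])

theorem conjHom_apply {n : ℕ} (A : Matrix.unitaryGroup (Fin n) ℂ) (i j : Fin n) :
    (conjHom n A : Matrix (Fin n) (Fin n) ℂ) i j = conj ((A : Matrix (Fin n) (Fin n) ℂ) i j) :=
  rfl

theorem continuous_kronHom (n m : ℕ) : Continuous (kronHom n m) := by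
  refine Continuous.subtype_mk (continuous_matrix fun a b => ?_) _
  exact ((continuous_apply_apply _ _).comp (continuous_subtype_val.comp continuous_fst)).mul
    ((continuous_apply_apply _ _).comp (continuous_subtype_val.comp continuous_snd))

theorem continuous_sumHom (n m : ℕ) : Continuous (sumHom n m) := by
  refine Continuous.subtype_mk ?_ _
  exact ((continuous_subtype_val.comp continuous_fst).matrix_fromBlocks continuous_const
    continuous_const (continuous_subtype_val.comp continuous_snd)).matrix_reindex _ _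

theorem continuous_conjHom (n : ℕ) : Continuous (conjHom n) :=
  Continuous.subtype_mk (continuous_matrix fun i j =>
    Complex.continuous_conj.comp ((continuous_apply_apply i j).comp continuous_subtype_val)) _

variable {G : Type*} [TopologicalSpace G] [Group G]

/-- The Kronecker product of two representations. -/
def kronRep {n m : ℕ} (π : G →* Matrix.unitaryGroup (Fin n) ℂ)
    (π' : G →* Matrix.unitaryGroup (Fin m) ℂ) : G →* Matrix.unitaryGroup (Fin (n * m)) ℂ :=
  (kronHom n m).comp (π.prod π')

/-- The direct sum of two representations. -/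
def sumRep {n m : ℕ} (π : G →* Matrix.unitaryGroup (Fin n) ℂ)
    (π' : G →* Matrix.unitaryGroup (Fin m) ℂ) : G →* Matrix.unitaryGroup (Fin (n + m)) ℂ :=
  (sumHom n m).comp (π.prod π')

theorem continuous_kronRep {n m : ℕ} {π : G →* Matrix.unitaryGroup (Fin n) ℂ}
    {π' : G →* Matrix.unitaryGroup (Fin m) ℂ} (h : Continuous π) (h' : Continuous π') :
    Continuous (kronRep π π') :=
  (continuous_kronHom n m).comp (h.prodMk h')

theorem continuous_sumRep {n m : ℕ} {π : G →* Matrix.unitaryGroup (Fin n) ℂ}
    {π' : G →* Matrix.unitaryGroup (Fin m) ℂ} (h : Continuous π) (h' : Continuous π') :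
    Continuous (sumRep π π') :=
  (continuous_sumHom n m).comp (h.prodMk h')

/-- A family of unitary matrices indexed by the continuous unitary representations that commutes
with intertwiners and respects Kronecker products. -/
structure IsTannakaFamily
    (α : ∀ n : ℕ, (G →* Matrix.unitaryGroup (Fin n) ℂ) → Matrix.unitaryGroup (Fin n) ℂ) :
    Prop where
  natural : ∀ (n m : ℕ) (π : G →* Matrix.unitaryGroup (Fin n) ℂ)
    (π' : G →* Matrix.unitaryGroup (Fin m) ℂ), Continuous π → Continuous π' →
    ∀ A : Matrix (Fin m) (Fin n) ℂ,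
      (∀ g, (π' g : Matrix (Fin m) (Fin m) ℂ) * A = A * (π g : Matrix (Fin n) (Fin n) ℂ)) →
      (α m π' : Matrix (Fin m) (Fin m) ℂ) * A = A * (α n π : Matrix (Fin n) (Fin n) ℂ)
  tensor : ∀ (n m : ℕ) (π : G →* Matrix.unitaryGroup (Fin n) ℂ)
    (π' : G →* Matrix.unitaryGroup (Fin m) ℂ), Continuous π → Continuous π' →
    α (n * m) (kronRep π π') = kronHom n m (α n π, α m π')

/-- Evaluation at a group element is such a family. -/
theorem isTannakaFamily_eval (g : G) : IsTannakaFamily (G := G) fun _ π => π g where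
  natural _ _ _ _ _ _ _ hA := hA g
  tensor _ _ _ _ _ _ := rfl

end FA.PeterWeyl

end
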