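import Fermat.Agent.PeterWeyl.Kernel
import Mathlib.Algebra.MvPolynomial.Eval
import Mathlib.LinearAlgebra.UnitaryGroup
import Mathlib.Topology.ContinuousMap.StoneWeierstrass
import Mathlib.Topology.Instances.Matrix
import Mathlib.Topology.UrysohnsLemma

/-!
# Compact linear groups are real algebraic

A matrix outside the image of a unitary representation of a compact group is separated from it by a
polynomial in the entries and their conjugates: average a Stone-Weierstrass approximation of a
function separating the image from its translate.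
-/

set_option autoImplicit false
set_option linter.unusedSectionVars false
set_option linter.style.haveILetI false

noncomputable section

open MeasureTheory MeasureTheory.Measure Topology Filter
open scoped ComplexConjugate

namespace FA.PeterWeyl

/-- The values of the variables at a matrix: the entries and their conjugates. -/
def polyVals {n : ℕ} (A : Matrix (Fin n) (Fin n) ℂ) : (Fin n × Fin n) ⊕ (Fin n × Fin n) → ℂ :=
  Sum.elim (fun p => A p.1 p.2) fun p => conj (A p.1 p.2)

theorem continuous_polyVals {n : ℕ} (v : (Fin n × Fin n) ⊕ (Fin n × Fin n)) :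
    Continuous fun A : Matrix (Fin n) (Fin n) ℂ => polyVals A v := by
  rcases v with ⟨i, j⟩ | ⟨i, j⟩
  · exact continuous_apply_apply i j
  · exact Complex.continuous_conj.comp (continuous_apply_apply i j)

theorem continuous_eval_polyVals {n : ℕ}
    (q : MvPolynomial ((Fin n × Fin n) ⊕ (Fin n × Fin n)) ℂ) :
    Continuous fun A : Matrix (Fin n) (Fin n) ℂ => MvPolynomial.eval (polyVals A) q := by
  induction q using MvPolynomial.induction_on with
  | C a =>
    simp only [MvPolynomial.eval_C]
    exact continuous_const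
  | add p q hp hq =>
    simp only [map_add]
    exact hp.add hq
  | mul_X p v hp =>
    simp only [map_mul, MvPolynomial.eval_X]
    exact hp.mul (continuous_polyVals v)

variable {G : Type*} [TopologicalSpace G] [Group G] [IsTopologicalGroup G] [CompactSpace G]
  [T2Space G]

section measure

variable [MeasurableSpace G] [BorelSpace G] (μ : Measure G) [IsMulLeftInvariant μ]
  [IsProbabilityMeasure μ]

/-- **Averaged polynomials are polynomials.** -/
theorem exists_avg_poly {n : ℕ} {π : G → Matrix (Fin n) (Fin n) ℂ} (hc : Continuous π)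
    (q : MvPolynomial ((Fin n × Fin n) ⊕ (Fin n × Fin n)) ℂ) :
    ∀ w : G → ℂ, Continuous w → ∃ P : MvPolynomial ((Fin n × Fin n) ⊕ (Fin n × Fin n)) ℂ,
      ∀ A, ∫ h, w h * MvPolynomial.eval (polyVals (π h * A)) q ∂μ =
        MvPolynomial.eval (polyVals A) P := by
  have ent : ∀ a b, Continuous fun h => π h a b := fun a b =>
    (continuous_apply_apply a b).comp hc
  have cev : ∀ (p : MvPolynomial ((Fin n × Fin n) ⊕ (Fin n × Fin n)) ℂ) A,
      Continuous fun h => MvPolynomial.eval (polyVals (π h * A)) p := fun p A =>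
    (continuous_eval_polyVals p).comp (hc.matrix_mul continuous_const)
  induction q using MvPolynomial.induction_on with
  | C a =>
    exact fun w _ => ⟨MvPolynomial.C (∫ h, w h * a ∂μ), fun A => by
      simp only [MvPolynomial.eval_C]⟩
  | add p q hp hq =>
    intro w hw
    obtain ⟨P, hP⟩ := hp w hw
    obtain ⟨Q, hQ⟩ := hq w hw
    refine ⟨P + Q, fun A => ?_⟩
    rw [map_add, ← hP, ← hQ, ← integral_add (integrable_cont μ (hw.fun_mul (cev p A)))
      (integrable_cont μ (hw.fun_mul (cev q A)))]
    exact integral_congr_ae (Eventually.of_forall fun h => by simp [mul_add])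
  | mul_X p v ih =>
    intro w hw
    rcases v with ⟨i, j⟩ | ⟨i, j⟩
    · choose P hP using fun k => ih (fun h => w h * π h i k) (hw.fun_mul (ent i k))
      refine ⟨∑ k, MvPolynomial.X (Sum.inl (k, j)) * P k, fun A => ?_⟩
      simp only [_root_.map_sum, map_mul, MvPolynomial.eval_X, ← hP, ← integral_const_mul]
      rw [← integral_finsetSum]
      swap
      · exact fun k _ => integrable_cont μ
          (continuous_const.fun_mul ((hw.fun_mul (ent i k)).fun_mul (cev p A)))
      refine integral_congr_ae (Eventually.of_forall fun h => ?_)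
      simp only [polyVals, Sum.elim_inl, Matrix.mul_apply, Finset.mul_sum]
      exact Finset.sum_congr rfl fun k _ => by ring
    · choose P hP using fun k =>
        ih (fun h => w h * conj (π h i k)) (hw.fun_mul (Complex.continuous_conj.comp (ent i k)))
      refine ⟨∑ k, MvPolynomial.X (Sum.inr (k, j)) * P k, fun A => ?_⟩
      simp only [_root_.map_sum, map_mul, MvPolynomial.eval_X, ← hP, ← integral_const_mul]
      rw [← integral_finsetSum]
      swap
      · exact fun k _ => integrable_cont μ (continuous_const.fun_mul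
          ((hw.fun_mul (Complex.continuous_conj.comp (ent i k))).fun_mul (cev p A)))
      refine integral_congr_ae (Eventually.of_forall fun h => ?_)
      simp only [polyVals, Sum.elim_inr, Matrix.mul_apply, _root_.map_sum, map_mul, Finset.mul_sum]
      exact Finset.sum_congr rfl fun k _ => by ring

include μ in
theorem exists_separating_poly_aux {n : ℕ} {π : G →* Matrix.unitaryGroup (Fin n) ℂ}
    (hc : Continuous π) {A : Matrix (Fin n) (Fin n) ℂ}
    (hA : ∀ g, (π g : Matrix (Fin n) (Fin n) ℂ) ≠ A) :
    ∃ P : MvPolynomial ((Fin n × Fin n) ⊕ (Fin n × Fin n)) ℂ,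
      (∀ g, MvPolynomial.eval (polyVals (π g : Matrix (Fin n) (Fin n) ℂ)) P = 0) ∧
        MvPolynomial.eval (polyVals A) P ≠ 0 := by
  haveI := isMulRightInvariant_compact μ
  set ρ : G → Matrix (Fin n) (Fin n) ℂ := fun g => (π g : Matrix (Fin n) (Fin n) ℂ) with hρdef
  have hρc : Continuous ρ := continuous_subtype_val.comp hc
  have hρm : ∀ g h, ρ (g * h) = ρ g * ρ h := fun g h => by simp [hρdef]
  set K := Set.range ρ
  set L := Set.range fun g => ρ g * A
  have hK : IsCompact K := isCompact_range hρc
  have hL : IsCompact L := isCompact_range (hρc.matrix_mul continuous_const)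
  haveI : CompactSpace (K ∪ L : Set (Matrix (Fin n) (Fin n) ℂ)) :=
    isCompact_iff_compactSpace.1 (hK.union hL)
  have hdisj : Disjoint K L := by
    rw [Set.disjoint_left]
    rintro _ ⟨g, rfl⟩ ⟨h, hgh⟩
    refine hA (h⁻¹ * g) ?_
    show ρ (h⁻¹ * g) = A
    rw [hρm, ← hgh, ← mul_assoc, ← hρm, inv_mul_cancel,
      show ρ 1 = 1 by simp [hρdef], one_mul]
  let X := (K ∪ L : Set (Matrix (Fin n) (Fin n) ℂ))
  let c : (Fin n × Fin n) ⊕ (Fin n × Fin n) → C(X, ℂ) := fun v =>
    ⟨fun B => polyVals B.1 v, (continuous_polyVals v).comp continuous_subtype_val⟩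
  have hsep : (StarAlgebra.adjoin ℂ (Set.range c)).SeparatesPoints := fun B B' hne => by
    obtain ⟨i, j, hij⟩ : ∃ i j, B.1 i j ≠ B'.1 i j := by
      by_contra hall
      push Not at hall
      exact hne (Subtype.ext (Matrix.ext hall))
    exact ⟨_, ⟨c (Sum.inl (i, j)), StarAlgebra.subset_adjoin ℂ _ ⟨_, rfl⟩, rfl⟩, hij⟩
  obtain ⟨u, hu0, hu1, -⟩ := exists_continuous_zero_one_of_isClosed
    (s := (Subtype.val ⁻¹' L : Set X)) (t := (Subtype.val ⁻¹' K : Set X))
    (hL.isClosed.preimage continuous_subtype_val) (hK.isClosed.preimage continuous_subtype_val)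
    (Disjoint.preimage _ hdisj.symm)
  have hmem : (⟨fun B => ((u B : ℝ) : ℂ), Complex.continuous_ofReal.comp u.continuous⟩ : C(X, ℂ)) ∈
      (StarAlgebra.adjoin ℂ (Set.range c)).topologicalClosure := by
    rw [ContinuousMap.starSubalgebra_topologicalClosure_eq_top_of_separatesPoints _ hsep]
    exact StarSubalgebra.mem_top
  rw [← SetLike.mem_coe, StarSubalgebra.topologicalClosure_coe] at hmem
  obtain ⟨f, hf, hdist⟩ := Metric.mem_closure_iff.1 hmem (1 / 4) (by norm_num)
  have hf' : f ∈ Algebra.adjoin ℂ (Set.range c) := by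
    have h1 : f ∈ (StarAlgebra.adjoin ℂ (Set.range c)).toSubalgebra := hf
    rw [StarAlgebra.adjoin_toSubalgebra, Set.union_eq_self_of_subset_right] at h1
    · exact h1
    · rintro s ⟨v, hv⟩
      refine ⟨v.elim Sum.inr Sum.inl, ?_⟩
      rw [← star_star s, ← hv]
      ext B
      rcases v with v | v <;> simp [c, polyVals]
  rw [Algebra.adjoin_range_eq_range_aeval] at hf'
  obtain ⟨q, hq⟩ := hf'
  have hev : ∀ B : X, MvPolynomial.eval (polyVals B.1) q = f B := fun B => by
    rw [← hq]
    show _ = ContinuousMap.evalAlgHom ℂ ℂ B (MvPolynomial.aeval c q)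
    rw [← AlgHom.comp_apply, MvPolynomial.comp_aeval, MvPolynomial.aeval_def,
      Algebra.algebraMap_self]
    rfl
  have hd : ∀ B : X, ‖(u B : ℂ) - MvPolynomial.eval (polyVals B.1) q‖ < 1 / 4 := fun B => by
    rw [hev]
    rw [← dist_eq_norm]
    exact lt_of_le_of_lt (ContinuousMap.dist_apply_le_dist (f := (⟨fun B => ((u B : ℝ) : ℂ),
      Complex.continuous_ofReal.comp u.continuous⟩ : C(X, ℂ))) (g := f) B) hdist
  obtain ⟨P, hP⟩ := exists_avg_poly μ hρc q 1 continuous_const
  simp only [Pi.one_apply, one_mul] at hP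
  refine ⟨P - MvPolynomial.C (MvPolynomial.eval (polyVals (ρ 1)) P), fun g => ?_, ?_⟩
  · rw [map_sub, MvPolynomial.eval_C, sub_eq_zero]
    show MvPolynomial.eval (polyVals (ρ g)) P = _
    rw [← hP, ← hP, ← integral_mul_right_eq_self
      (fun h => MvPolynomial.eval (polyVals (ρ h * ρ 1)) q) g]
    simp only [← hρm, mul_one]
  · rw [map_sub, MvPolynomial.eval_C, sub_ne_zero]
    intro heq
    rw [← hP, ← hP] at heq
    have e0 : ‖∫ h, MvPolynomial.eval (polyVals (ρ h * A)) q ∂μ‖ ≤ 1 / 4 := by
      refine (norm_integral_le_of_norm_le_const (C := 1 / 4)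
        (Eventually.of_forall fun h => ?_)).trans (by simp)
      have h2 := hd ⟨ρ h * A, Or.inr ⟨h, rfl⟩⟩
      have h3 : u ⟨ρ h * A, Or.inr ⟨h, rfl⟩⟩ = 0 := hu0 (show ρ h * A ∈ L from ⟨h, rfl⟩)
      rw [h3, Complex.ofReal_zero, zero_sub, norm_neg] at h2
      exact h2.le
    have ci : Continuous fun h => MvPolynomial.eval (polyVals (ρ h * ρ 1)) q :=
      (continuous_eval_polyVals q).comp (hρc.matrix_mul continuous_const)
    have e1 : ‖(∫ h, MvPolynomial.eval (polyVals (ρ h * ρ 1)) q ∂μ) - 1‖ ≤ 1 / 4 := by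
      rw [show (1 : ℂ) = ∫ _ : G, (1 : ℂ) ∂μ by simp,
        ← integral_sub (integrable_cont μ ci) (integrable_cont μ continuous_const)]
      refine (norm_integral_le_of_norm_le_const (C := 1 / 4)
        (Eventually.of_forall fun h => ?_)).trans (by simp)
      have h2 := hd ⟨ρ h, Or.inl ⟨h, rfl⟩⟩
      have h3 : u ⟨ρ h, Or.inl ⟨h, rfl⟩⟩ = 1 := hu1 (show ρ h ∈ K from ⟨h, rfl⟩)
      rw [h3, Complex.ofReal_one, norm_sub_rev] at h2
      rw [← hρm, mul_one]
      exact h2.le
    rw [← heq] at e1
    have := norm_sub_norm_le (1 : ℂ) (∫ h, MvPolynomial.eval (polyVals (ρ h * A)) q ∂μ)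
    rw [norm_sub_rev, norm_one] at this
    linarith

end measure

/-- **Compact linear groups are real algebraic.** -/
theorem exists_separating_poly {n : ℕ} {π : G →* Matrix.unitaryGroup (Fin n) ℂ}
    (hc : Continuous π) {A : Matrix (Fin n) (Fin n) ℂ}
    (hA : ∀ g, (π g : Matrix (Fin n) (Fin n) ℂ) ≠ A) :
    ∃ P : MvPolynomial ((Fin n × Fin n) ⊕ (Fin n × Fin n)) ℂ,
      (∀ g, MvPolynomial.eval (polyVals (π g : Matrix (Fin n) (Fin n) ℂ)) P = 0) ∧
        MvPolynomial.eval (polyVals A) P ≠ 0 := by
  letI : MeasurableSpace G := borel G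
  haveI : BorelSpace G := ⟨rfl⟩
  let K₀ : TopologicalSpace.PositiveCompacts G := ⟨⟨Set.univ, isCompact_univ⟩, by simp⟩
  haveI : IsProbabilityMeasure (haarMeasure K₀) := ⟨haarMeasure_self (K₀ := K₀)⟩
  exact exists_separating_poly_aux (haarMeasure K₀) hc hA

end FA.PeterWeyl

end
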