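import Fermat.Agent.PeterWeyl.Defs
import Fermat.Agent.PeterWeyl.Kernel
import Mathlib.Analysis.Complex.Polynomial.Basic
import Mathlib.LinearAlgebra.Eigenspace.Triangularizable
import Mathlib.LinearAlgebra.Matrix.Trace

/-!
# Schur's orthogonality relations

Averaging a matrix unit between two irreducible representations gives an intertwiner, which is `0`
for inequivalent representations and a scalar, computed by its trace, for equal ones.
-/

set_option autoImplicit false
set_option linter.unusedSectionVars false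
set_option linter.style.haveILetI false

noncomputable section

open MeasureTheory MeasureTheory.Measure Topology Filter
open scoped Matrix ComplexConjugate

namespace FA.PeterWeyl

variable {G : Type*} [Group G] {n m : ℕ}

/-- **Schur's lemma.** -/
theorem intertwiner_bijective {π : G →* Matrix.unitaryGroup (Fin n) ℂ}
    {π' : G →* Matrix.unitaryGroup (Fin m) ℂ} (hπ : IsIrreducibleMat π) (hπ' : IsIrreducibleMat π')
    {A : Matrix (Fin n) (Fin m) ℂ}
    (hA : ∀ g, (π g : Matrix (Fin n) (Fin n) ℂ) * A = A * (π' g : Matrix (Fin m) (Fin m) ℂ))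
    (h0 : A ≠ 0) : Function.Bijective A.mulVec := by
  have hker : LinearMap.ker A.mulVecLin = ⊥ := by
    refine (hπ'.2 _ fun g w hw => ?_).resolve_right fun h => h0 ?_
    · rw [LinearMap.mem_ker, Matrix.mulVecLin_apply] at hw ⊢
      rw [Matrix.mulVec_mulVec, ← hA, ← Matrix.mulVec_mulVec, hw, Matrix.mulVec_zero]
    · ext i j
      have hj : A.mulVecLin (Pi.single j 1) = 0 := LinearMap.mem_ker.1 (by rw [h]; trivial)
      have := congrFun hj i
      simpa using this
  have hrange : LinearMap.range A.mulVecLin = ⊤ := by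
    refine (hπ.2 _ fun g w hw => ?_).resolve_left fun h => h0 ?_
    · obtain ⟨z, rfl⟩ := hw
      refine ⟨(π' g : Matrix (Fin m) (Fin m) ℂ) *ᵥ z, ?_⟩
      simp only [Matrix.mulVecLin_apply, Matrix.mulVec_mulVec, hA]
    · ext i j
      have hj : A.mulVecLin (Pi.single j 1) ∈ LinearMap.range A.mulVecLin := ⟨_, rfl⟩
      rw [h, Submodule.mem_bot] at hj
      have := congrFun hj i
      simpa using this
  exact ⟨LinearMap.ker_eq_bot.1 hker, LinearMap.range_eq_top.1 hrange⟩

/-- **Schur's lemma: a self-intertwiner is a scalar.** -/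
theorem intertwiner_scalar {π : G →* Matrix.unitaryGroup (Fin n) ℂ} (hπ : IsIrreducibleMat π)
    {A : Matrix (Fin n) (Fin n) ℂ}
    (hA : ∀ g, (π g : Matrix (Fin n) (Fin n) ℂ) * A = A * (π g : Matrix (Fin n) (Fin n) ℂ)) :
    ∃ c : ℂ, A = c • (1 : Matrix (Fin n) (Fin n) ℂ) := by
  haveI : Nonempty (Fin n) := ⟨⟨0, hπ.1⟩⟩
  obtain ⟨c, hc⟩ := Module.End.exists_eigenvalue A.mulVecLin
  obtain ⟨v, hv⟩ := hc.exists_hasEigenvector
  refine ⟨c, sub_eq_zero.1 (by_contra fun h => hv.2 ?_)⟩
  refine (intertwiner_bijective hπ hπ (A := A - c • 1) (fun g => ?_) h).1 ?_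
  · rw [Matrix.mul_sub, Matrix.sub_mul, hA, Matrix.mul_smul, Matrix.smul_mul, mul_one, one_mul]
  · show (A - c • 1) *ᵥ v = (A - c • 1) *ᵥ 0
    rw [Matrix.mulVec_zero, Matrix.sub_mulVec, Matrix.smul_mulVec, Matrix.one_mulVec, sub_eq_zero]
    exact Module.End.mem_eigenspace_iff.1 hv.1

variable [TopologicalSpace G] [IsTopologicalGroup G] [CompactSpace G] [T2Space G]
  [MeasurableSpace G] [BorelSpace G] (μ : Measure G) [IsMulLeftInvariant μ]
  [IsProbabilityMeasure μ]

/-- The average `∫ π(g) Eⱼₗ π'(g)ᴴ`. -/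
def avgMat (π : G →* Matrix.unitaryGroup (Fin n) ℂ) (π' : G →* Matrix.unitaryGroup (Fin m) ℂ)
    (j : Fin n) (l : Fin m) : Matrix (Fin n) (Fin m) ℂ :=
  Matrix.of fun i k => ∫ g, (π g : Matrix (Fin n) (Fin n) ℂ) i j *
    conj ((π' g : Matrix (Fin m) (Fin m) ℂ) k l) ∂μ

theorem avgMat_intertwines {π : G →* Matrix.unitaryGroup (Fin n) ℂ}
    {π' : G →* Matrix.unitaryGroup (Fin m) ℂ} (hc : Continuous π) (hc' : Continuous π')
    (j : Fin n) (l : Fin m) (h : G) :
    (π h : Matrix (Fin n) (Fin n) ℂ) * avgMat μ π π' j l =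
      avgMat μ π π' j l * (π' h : Matrix (Fin m) (Fin m) ℂ) := by
  have cπ : ∀ i j, Continuous fun g => (π g : Matrix (Fin n) (Fin n) ℂ) i j := fun i j =>
    (continuous_apply_apply i j).comp (continuous_subtype_val.comp hc)
  have cπ' : ∀ i j, Continuous fun g => conj ((π' g : Matrix (Fin m) (Fin m) ℂ) i j) := fun i j =>
    Complex.continuous_conj.comp ((continuous_apply_apply i j).comp (continuous_subtype_val.comp hc'))
  have star' : ∀ b k, (π' h : Matrix (Fin m) (Fin m) ℂ) b k =
      conj ((π' h⁻¹ : Matrix (Fin m) (Fin m) ℂ) k b) := fun b k => by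
    rw [map_inv]
    show _ = conj (conj ((π' h : Matrix (Fin m) (Fin m) ℂ) b k))
    rw [Complex.conj_conj]
  ext i k
  rw [Matrix.mul_apply, Matrix.mul_apply]
  calc ∑ a, (π h : Matrix (Fin n) (Fin n) ℂ) i a * avgMat μ π π' j l a k
      = ∫ g, (π (h * g) : Matrix (Fin n) (Fin n) ℂ) i j *
          conj ((π' g : Matrix (Fin m) (Fin m) ℂ) k l) ∂μ := by
        simp only [avgMat, Matrix.of_apply, ← integral_const_mul]
        rw [← integral_finsetSum]
        swap
        · exact fun a _ =>
            integrable_cont μ (continuous_const.mul ((cπ a j).mul (cπ' k l)))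
        refine integral_congr_ae (Eventually.of_forall fun g => ?_)
        simp only [map_mul, Matrix.UnitaryGroup.mul_val, Matrix.mul_apply, Finset.sum_mul,
          mul_assoc]
    _ = ∫ g, (π g : Matrix (Fin n) (Fin n) ℂ) i j *
          conj ((π' (h⁻¹ * g) : Matrix (Fin m) (Fin m) ℂ) k l) ∂μ := by
        conv_rhs => rw [← integral_mul_left_eq_self _ h]
        simp only [inv_mul_cancel_left]
    _ = ∑ b, avgMat μ π π' j l i b * (π' h : Matrix (Fin m) (Fin m) ℂ) b k := by
        simp only [avgMat, Matrix.of_apply, ← integral_mul_const]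
        rw [← integral_finsetSum]
        swap
        · exact fun b _ =>
            integrable_cont μ (((cπ i j).mul (cπ' b l)).mul continuous_const)
        refine integral_congr_ae (Eventually.of_forall fun g => ?_)
        simp only [map_mul, Matrix.UnitaryGroup.mul_val, Matrix.mul_apply, _root_.map_sum, Finset.mul_sum,
          star']
        exact Finset.sum_congr rfl fun b _ => by ring

/-- **Coefficients of inequivalent irreducible representations are orthogonal.** -/
theorem integral_coeff_eq_zero {π : G →* Matrix.unitaryGroup (Fin n) ℂ}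
    {π' : G →* Matrix.unitaryGroup (Fin m) ℂ} (hc : Continuous π) (hc' : Continuous π')
    (hπ : IsIrreducibleMat π) (hπ' : IsIrreducibleMat π')
    (hne : ¬ ∃ A : Matrix (Fin n) (Fin m) ℂ, Function.Bijective A.mulVec ∧
      ∀ g, (π g : Matrix (Fin n) (Fin n) ℂ) * A = A * (π' g : Matrix (Fin m) (Fin m) ℂ))
    (i j : Fin n) (k l : Fin m) :
    ∫ g, (π g : Matrix (Fin n) (Fin n) ℂ) i j *
      conj ((π' g : Matrix (Fin m) (Fin m) ℂ) k l) ∂μ = 0 := by
  have h0 : avgMat μ π π' j l = 0 := by_contra fun h => hne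
    ⟨_, intertwiner_bijective hπ hπ' (avgMat_intertwines μ hc hc' j l) h,
      avgMat_intertwines μ hc hc' j l⟩
  exact congrFun (congrFun h0 i) k

/-- **Schur's orthogonality relations.** -/
theorem integral_coeff {π : G →* Matrix.unitaryGroup (Fin n) ℂ} (hc : Continuous π)
    (hπ : IsIrreducibleMat π) (i j k l : Fin n) :
    ∫ g, (π g : Matrix (Fin n) (Fin n) ℂ) i j *
      conj ((π g : Matrix (Fin n) (Fin n) ℂ) k l) ∂μ =
      if i = k ∧ j = l then (n : ℂ)⁻¹ else 0 := by
  obtain ⟨c, hcA⟩ := intertwiner_scalar hπ (avgMat_intertwines μ hc hc j l)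
  have hentry : ∀ a b, ∫ g, (π g : Matrix (Fin n) (Fin n) ℂ) a j *
      conj ((π g : Matrix (Fin n) (Fin n) ℂ) b l) ∂μ = if a = b then c else 0 := fun a b => by
    have h := congrFun (congrFun hcA a) b
    simpa [avgMat, Matrix.one_apply] using h
  have cπ : ∀ a b, Continuous fun g => (π g : Matrix (Fin n) (Fin n) ℂ) a b := fun a b =>
    (continuous_apply_apply a b).comp (continuous_subtype_val.comp hc)
  have htr : (n : ℂ) * c = if j = l then 1 else 0 := by
    have e : ∀ g, ∑ a, (π g : Matrix (Fin n) (Fin n) ℂ) a j *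
        conj ((π g : Matrix (Fin n) (Fin n) ℂ) a l) = if j = l then 1 else 0 := fun g => by
      have h := congrFun (congrFun (Matrix.mem_unitaryGroup_iff'.1 (π g).2) l) j
      simp only [Matrix.mul_apply, Matrix.star_apply, Matrix.one_apply] at h
      rw [show (if j = l then (1 : ℂ) else 0) = if l = j then 1 else 0 by simp [eq_comm], ← h]
      exact Finset.sum_congr rfl fun a _ => mul_comm _ _
    have h := integral_finsetSum (μ := μ) (Finset.univ : Finset (Fin n))
      (f := fun a g => (π g : Matrix (Fin n) (Fin n) ℂ) a j *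
        conj ((π g : Matrix (Fin n) (Fin n) ℂ) a l))
      fun a _ => integrable_cont μ ((cπ a j).mul (Complex.continuous_conj.comp (cπ a l)))
    simp only [e, hentry, if_true, Finset.sum_const, Finset.card_univ, Fintype.card_fin,
      nsmul_eq_mul, integral_const, probReal_univ, one_smul] at h
    exact h.symm
  rw [hentry]
  have hn : (n : ℂ) ≠ 0 := Nat.cast_ne_zero.2 hπ.1.ne'
  have hcval : c = if j = l then (n : ℂ)⁻¹ else 0 := by
    apply mul_left_cancel₀ hn
    rw [htr]
    split_ifs <;> simp [hn]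
  rw [hcval]
  split_ifs <;> simp_all

end FA.PeterWeyl

end
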