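import Fermat.Agent.PeterWeyl.Main
import Fermat.Agent.PeterWeyl.Orthogonality

/-!
# Characters of compact groups

The characters of the irreducible unitary representations are orthonormal and determine the
representations, and averaging over conjugation turns the Peter-Weyl theorem into their density in
the class functions.
-/

set_option autoImplicit false
set_option linter.unusedSectionVars false
set_option linter.style.haveILetI false

noncomputable section

open MeasureTheory MeasureTheory.Measure Topology Filter
open scoped Matrix ComplexConjugate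

namespace FA.PeterWeyl

variable {G : Type*} [TopologicalSpace G] [Group G] [IsTopologicalGroup G] [CompactSpace G]
  [T2Space G]

/-- The character `g ↦ trace π(g)`. -/
def repChar {n : ℕ} (π : G →* Matrix.unitaryGroup (Fin n) ℂ) (g : G) : ℂ :=
  Matrix.trace (π g : Matrix (Fin n) (Fin n) ℂ)

theorem continuous_repChar {n : ℕ} {π : G →* Matrix.unitaryGroup (Fin n) ℂ} (hc : Continuous π) :
    Continuous (repChar π) :=
  (continuous_subtype_val.comp hc).matrix_trace

variable (G) in
/-- The characters of the irreducible continuous unitary representations. -/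
def charFunSet : Set C(G, ℂ) :=
  {f | ∃ (n : ℕ) (π : G →* Matrix.unitaryGroup (Fin n) ℂ),
    Continuous π ∧ IsIrreducibleMat π ∧ ∀ g, f g = repChar π g}

section measure

variable [MeasurableSpace G] [BorelSpace G] (μ : Measure G) [IsMulLeftInvariant μ]
  [IsProbabilityMeasure μ]

/-- **The character of an irreducible representation has norm `1`.** -/
theorem integral_repChar_self {n : ℕ} {π : G →* Matrix.unitaryGroup (Fin n) ℂ} (hc : Continuous π)
    (hπ : IsIrreducibleMat π) : ∫ g, repChar π g * conj (repChar π g) ∂μ = 1 := by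
  have ent : ∀ i j, Continuous fun g => (π g : Matrix (Fin n) (Fin n) ℂ) i j := fun i j =>
    (continuous_apply_apply i j).comp (continuous_subtype_val.comp hc)
  simp only [repChar, Matrix.trace, Matrix.diag, _root_.map_sum, Finset.sum_mul_sum]
  rw [integral_finsetSum]
  swap
  · exact fun i _ => integrable_finsetSum _ fun j _ =>
      integrable_cont μ ((ent i i).fun_mul (Complex.continuous_conj.comp (ent j j)))
  simp only [fun i => integral_finsetSum (μ := μ) (Finset.univ : Finset (Fin n))
    (f := fun j g => (π g : Matrix (Fin n) (Fin n) ℂ) i i *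
      conj ((π g : Matrix (Fin n) (Fin n) ℂ) j j))
    (fun j _ => integrable_cont μ ((ent i i).fun_mul (Complex.continuous_conj.comp (ent j j)))),
    integral_coeff μ hc hπ, and_self, Finset.sum_ite_eq, Finset.mem_univ, if_true, Finset.sum_const,
    Finset.card_univ, Fintype.card_fin, nsmul_eq_mul]
  exact mul_inv_cancel₀ (Nat.cast_ne_zero.2 hπ.1.ne')

/-- **Characters of inequivalent irreducible representations are orthogonal.** -/
theorem integral_repChar_eq_zero {n m : ℕ} {π : G →* Matrix.unitaryGroup (Fin n) ℂ}
    {π' : G →* Matrix.unitaryGroup (Fin m) ℂ} (hc : Continuous π) (hc' : Continuous π')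
    (hπ : IsIrreducibleMat π) (hπ' : IsIrreducibleMat π')
    (hne : ¬ ∃ A : Matrix (Fin n) (Fin m) ℂ, Function.Bijective A.mulVec ∧
      ∀ g, (π g : Matrix (Fin n) (Fin n) ℂ) * A = A * (π' g : Matrix (Fin m) (Fin m) ℂ)) :
    ∫ g, repChar π g * conj (repChar π' g) ∂μ = 0 := by
  have ent : ∀ i, Continuous fun g => (π g : Matrix (Fin n) (Fin n) ℂ) i i := fun i =>
    (continuous_apply_apply i i).comp (continuous_subtype_val.comp hc)
  have ent' : ∀ i, Continuous fun g => conj ((π' g : Matrix (Fin m) (Fin m) ℂ) i i) := fun i =>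
    Complex.continuous_conj.comp
      ((continuous_apply_apply i i).comp (continuous_subtype_val.comp hc'))
  simp only [repChar, Matrix.trace, Matrix.diag, _root_.map_sum, Finset.sum_mul_sum]
  rw [integral_finsetSum]
  swap
  · exact fun i _ => integrable_finsetSum _ fun j _ =>
      integrable_cont μ ((ent i).fun_mul (ent' j))
  refine Finset.sum_eq_zero fun i _ => ?_
  rw [integral_finsetSum]
  swap
  · exact fun j _ => integrable_cont μ ((ent i).fun_mul (ent' j))
  exact Finset.sum_eq_zero fun j _ => integral_coeff_eq_zero μ hc hc' hπ hπ' hne i i j j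

include μ in
theorem equivalent_of_repChar_eq_aux {n m : ℕ} {π : G →* Matrix.unitaryGroup (Fin n) ℂ}
    {π' : G →* Matrix.unitaryGroup (Fin m) ℂ} (hc : Continuous π) (hc' : Continuous π')
    (hπ : IsIrreducibleMat π) (hπ' : IsIrreducibleMat π')
    (h : ∀ g, repChar π g = repChar π' g) :
    ∃ A : Matrix (Fin n) (Fin m) ℂ, Function.Bijective A.mulVec ∧
      ∀ g, (π g : Matrix (Fin n) (Fin n) ℂ) * A = A * (π' g : Matrix (Fin m) (Fin m) ℂ) := by
  by_contra hne
  have h0 := integral_repChar_eq_zero μ hc hc' hπ hπ' hne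
  simp only [← h] at h0
  rw [integral_repChar_self μ hc hπ] at h0
  exact one_ne_zero h0

/-- The integral as a functional. -/
def intC : C(G, ℂ) →L[ℂ] ℂ :=
  LinearMap.mkContinuous
    { toFun := fun u => ∫ x, u x ∂μ
      map_add' := fun u v => integral_add (integrable_cont μ u.continuous)
        (integrable_cont μ v.continuous)
      map_smul' := fun c u => integral_const_mul c _ } 1 fun u => by
      refine (norm_integral_le_of_norm_le_const
        (Filter.Eventually.of_forall fun x => u.norm_coe_le_norm x)).trans_eq ?_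
      rw [probReal_univ, mul_one, one_mul]

theorem intC_apply (u : C(G, ℂ)) : intC μ u = ∫ x, u x ∂μ := rfl

theorem norm_intC_le (u : C(G, ℂ)) : ‖intC μ u‖ ≤ ‖u‖ :=
  ((intC μ).le_opNorm u).trans
    (mul_le_of_le_one_left (norm_nonneg _) (LinearMap.mkContinuous_norm_le _ zero_le_one _))

/-- `x ↦ (g ↦ F (g x g⁻¹))`. -/
def conjSweep (F : C(G, ℂ)) : C(G, C(G, ℂ)) :=
  ContinuousMap.curry ⟨fun p : G × G => F (p.2 * p.1 * p.2⁻¹),
    F.continuous.comp ((continuous_snd.mul continuous_fst).mul continuous_snd.inv)⟩

/-- The average over conjugation. -/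
def classAvg : C(G, ℂ) →L[ℂ] C(G, ℂ) :=
  LinearMap.mkContinuous
    { toFun := fun F => ⟨fun x => intC μ (conjSweep F x),
        (intC μ).continuous.comp (conjSweep F).continuous⟩
      map_add' := fun F F' => ContinuousMap.ext fun x => by
        show intC μ (conjSweep (F + F') x) = intC μ (conjSweep F x) + intC μ (conjSweep F' x)
        rw [← map_add]
        rfl
      map_smul' := fun c F => ContinuousMap.ext fun x => by
        show intC μ (conjSweep (c • F) x) = c • intC μ (conjSweep F x)
        rw [← map_smul]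
        rfl } 1 fun F => by
      rw [one_mul]
      exact (ContinuousMap.norm_le _ (norm_nonneg F)).2 fun x => (norm_intC_le μ _).trans
        ((ContinuousMap.norm_le _ (norm_nonneg F)).2 fun g => F.norm_coe_le_norm _)

theorem classAvg_apply (F : C(G, ℂ)) (x : G) : classAvg μ F x = ∫ g, F (g * x * g⁻¹) ∂μ := rfl

/-- Averaging a coefficient gives a multiple of the character. -/
theorem classAvg_coeff {n : ℕ} {π : G →* Matrix.unitaryGroup (Fin n) ℂ} (hc : Continuous π)
    (hπ : IsIrreducibleMat π) {i j : Fin n} {f : C(G, ℂ)}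
    (hf : ∀ g, f g = (π g : Matrix (Fin n) (Fin n) ℂ) i j) (x : G) :
    classAvg μ f x = (if i = j then (n : ℂ)⁻¹ else 0) * repChar π x := by
  have ent : ∀ a b, Continuous fun g => (π g : Matrix (Fin n) (Fin n) ℂ) a b := fun a b =>
    (continuous_apply_apply a b).comp (continuous_subtype_val.comp hc)
  have hint : ∀ a b, Continuous fun g => (π x : Matrix (Fin n) (Fin n) ℂ) a b *
      ((π g : Matrix (Fin n) (Fin n) ℂ) i a * conj ((π g : Matrix (Fin n) (Fin n) ℂ) j b)) :=
    fun a b => continuous_const.fun_mul
      ((ent i a).fun_mul (Complex.continuous_conj.comp (ent j b)))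
  have e : ∀ g, f (g * x * g⁻¹) = ∑ a, ∑ b, (π x : Matrix (Fin n) (Fin n) ℂ) a b *
      ((π g : Matrix (Fin n) (Fin n) ℂ) i a * conj ((π g : Matrix (Fin n) (Fin n) ℂ) j b)) :=
    fun g => by
    rw [hf, map_mul, map_mul, map_inv, Matrix.UnitaryGroup.mul_val, Matrix.UnitaryGroup.mul_val,
      Matrix.UnitaryGroup.inv_val, Matrix.mul_apply]
    simp only [Matrix.mul_apply, Matrix.star_apply, Finset.sum_mul, Complex.star_def]
    rw [Finset.sum_comm]
    exact Finset.sum_congr rfl fun a _ => Finset.sum_congr rfl fun b _ => by ring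
  rw [classAvg_apply]
  simp only [e]
  rw [integral_finsetSum]
  swap
  · exact fun a _ => integrable_finsetSum _ fun b _ => integrable_cont μ (hint a b)
  simp only [fun a => integral_finsetSum (μ := μ) (Finset.univ : Finset (Fin n))
    (f := fun b g => (π x : Matrix (Fin n) (Fin n) ℂ) a b *
      ((π g : Matrix (Fin n) (Fin n) ℂ) i a * conj ((π g : Matrix (Fin n) (Fin n) ℂ) j b)))
    (fun b _ => integrable_cont μ (hint a b)), integral_const_mul, integral_coeff μ hc hπ]
  by_cases hij : i = j
  · simp only [hij, true_and, mul_ite, mul_zero, Finset.sum_ite_eq, Finset.mem_univ, if_true,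
      repChar, Matrix.trace, Matrix.diag, Finset.mul_sum]
    exact Finset.sum_congr rfl fun a _ => mul_comm _ _
  · simp [hij]

include μ in
theorem mem_closure_charFunSet_aux {F : C(G, ℂ)} (hF : ∀ g x, F (g * x * g⁻¹) = F x) :
    F ∈ closure (Submodule.span ℂ (charFunSet G) : Set C(G, ℂ)) := by
  have hfix : classAvg μ F = F := ContinuousMap.ext fun x => by
    rw [classAvg_apply]
    simp only [hF, integral_const, probReal_univ, one_smul]
  rw [← hfix]
  refine map_mem_closure (classAvg μ).continuous (dense_span_coeff F) fun f hf => ?_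
  refine Submodule.span_induction (p := fun f _ => classAvg μ f ∈ Submodule.span ℂ (charFunSet G))
    (fun f hf => ?_) ?_ (fun a b _ _ ha hb => ?_) (fun z a _ ha => ?_) hf
  · obtain ⟨n, π, hc, hirr, i, j, hf⟩ := hf
    rw [show classAvg μ f = (if i = j then (n : ℂ)⁻¹ else 0) •
      (⟨repChar π, continuous_repChar hc⟩ : C(G, ℂ)) from
        ContinuousMap.ext fun x => classAvg_coeff μ hc hirr hf x]
    exact Submodule.smul_mem _ _ (Submodule.subset_span ⟨n, π, hc, hirr, fun g => rfl⟩)
  · rw [map_zero]
    exact Submodule.zero_mem _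
  · rw [map_add]
    exact Submodule.add_mem _ ha hb
  · rw [map_smul]
    exact Submodule.smul_mem _ _ ha

/-- **A class function is determined by its integrals against the characters.** -/
theorem classFun_eq_zero {F : C(G, ℂ)} (hF : ∀ g x, F (g * x * g⁻¹) = F x)
    (h : ∀ f ∈ charFunSet G, ∫ x, conj (f x) * F x ∂μ = 0) : F = 0 := by
  refine toL2_injective μ ?_
  rw [map_zero, ← inner_self_eq_zero (𝕜 := ℂ)]
  have hcl : IsClosed {f : C(G, ℂ) | inner ℂ (toL2 μ f) (toL2 μ F) = 0} :=
    isClosed_eq ((toL2 μ).continuous.inner continuous_const) continuous_const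
  refine closure_minimal (fun f hf => ?_) hcl (mem_closure_charFunSet_aux μ hF)
  refine Submodule.span_induction (p := fun f _ => inner ℂ (toL2 μ f) (toL2 μ F) = 0)
    (fun f hf => ?_) ?_ (fun a b _ _ ha hb => ?_) (fun z a _ ha => ?_) hf
  · rw [inner_toL2]
    exact h f hf
  · rw [map_zero, inner_zero_left]
  · rw [map_add, inner_add_left, ha, hb, add_zero]
  · rw [map_smul, inner_smul_left, ha, mul_zero]

end measure

/-- **Irreducible representations with equal characters are equivalent.** -/
theorem equivalent_of_repChar_eq {n m : ℕ} {π : G →* Matrix.unitaryGroup (Fin n) ℂ}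
    {π' : G →* Matrix.unitaryGroup (Fin m) ℂ} (hc : Continuous π) (hc' : Continuous π')
    (hπ : IsIrreducibleMat π) (hπ' : IsIrreducibleMat π')
    (h : ∀ g, repChar π g = repChar π' g) :
    ∃ A : Matrix (Fin n) (Fin m) ℂ, Function.Bijective A.mulVec ∧
      ∀ g, (π g : Matrix (Fin n) (Fin n) ℂ) * A = A * (π' g : Matrix (Fin m) (Fin m) ℂ) := by
  letI : MeasurableSpace G := borel G
  haveI : BorelSpace G := ⟨rfl⟩
  let K₀ : TopologicalSpace.PositiveCompacts G := ⟨⟨Set.univ, isCompact_univ⟩, by simp⟩
  haveI : IsProbabilityMeasure (haarMeasure K₀) := ⟨haarMeasure_self (K₀ := K₀)⟩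
  exact equivalent_of_repChar_eq_aux (haarMeasure K₀) hc hc' hπ hπ' h

/-- **The irreducible characters span the class functions densely.** -/
theorem mem_closure_charFunSet {F : C(G, ℂ)} (hF : ∀ g x, F (g * x * g⁻¹) = F x) :
    F ∈ closure (Submodule.span ℂ (charFunSet G) : Set C(G, ℂ)) := by
  letI : MeasurableSpace G := borel G
  haveI : BorelSpace G := ⟨rfl⟩
  let K₀ : TopologicalSpace.PositiveCompacts G := ⟨⟨Set.univ, isCompact_univ⟩, by simp⟩
  haveI : IsProbabilityMeasure (haarMeasure K₀) := ⟨haarMeasure_self (K₀ := K₀)⟩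
  exact mem_closure_charFunSet_aux (haarMeasure K₀) hF

end FA.PeterWeyl

end
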