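import Mathlib.Analysis.InnerProductSpace.Basic
import Mathlib.LinearAlgebra.UnitaryGroup
import Mathlib.LinearAlgebra.Matrix.ToLin
import Mathlib.Topology.Instances.Matrix
import Mathlib.Topology.ContinuousMap.Compact
import Mathlib.Analysis.Complex.Basic
import Mathlib.LinearAlgebra.FiniteDimensional.Defs

/-!
# Unitary representations of topological groups

Strongly continuous unitary representations on inner product spaces, irreducible finite-dimensional
subrepresentations, irreducible unitary matrix representations and their coefficient functions.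
-/

set_option autoImplicit false

noncomputable section

open scoped Matrix

namespace FA.PeterWeyl

/-- A strongly continuous unitary representation. -/
structure IsUnitaryRep {G H : Type*} [TopologicalSpace G] [Group G] [NormedAddCommGroup H]
    [InnerProductSpace ℂ H] (ρ : G →* (H →L[ℂ] H)) : Prop where
  norm_map : ∀ g v, ‖ρ g v‖ = ‖v‖
  continuous_apply : ∀ v, Continuous fun g => ρ g v

/-- A subspace invariant under a representation. -/
def IsInvariant {G H : Type*} [Group G] [NormedAddCommGroup H] [InnerProductSpace ℂ H]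
    (ρ : G →* (H →L[ℂ] H)) (V : Submodule ℂ H) : Prop :=
  ∀ g, ∀ v ∈ V, ρ g v ∈ V

/-- A finite-dimensional irreducible invariant subspace. -/
structure IsIrreducibleSub {G H : Type*} [Group G] [NormedAddCommGroup H] [InnerProductSpace ℂ H]
    (ρ : G →* (H →L[ℂ] H)) (V : Submodule ℂ H) : Prop where
  finiteDimensional : FiniteDimensional ℂ V
  invariant : IsInvariant ρ V
  ne_bot : V ≠ ⊥
  minimal : ∀ W ≤ V, IsInvariant ρ W → W = ⊥ ∨ W = V

/-- An irreducible unitary matrix representation: it is nonzero and `ℂⁿ` has no invariant subspace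
other than `0` and itself. -/
def IsIrreducibleMat {G : Type*} [Group G] {n : ℕ}
    (π : G →* Matrix.unitaryGroup (Fin n) ℂ) : Prop :=
  0 < n ∧ ∀ W : Submodule ℂ (Fin n → ℂ),
    (∀ g, ∀ v ∈ W, (π g : Matrix (Fin n) (Fin n) ℂ) *ᵥ v ∈ W) → W = ⊥ ∨ W = ⊤

/-- The coefficient functions `g ↦ π(g)ᵢⱼ` of the irreducible continuous unitary representations. -/
def coeffSet (G : Type*) [TopologicalSpace G] [Group G] : Set C(G, ℂ) :=
  {f | ∃ (n : ℕ) (π : G →* Matrix.unitaryGroup (Fin n) ℂ),
    Continuous π ∧ IsIrreducibleMat π ∧ ∃ i j : Fin n, ∀ g,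
      f g = (π g : Matrix (Fin n) (Fin n) ℂ) i j}

end FA.PeterWeyl

end
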