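import Mathlib.Analysis.InnerProductSpace.Rayleigh
import Mathlib.Analysis.InnerProductSpace.Projection.Basic
import Mathlib.Analysis.Normed.Operator.Compact.FredholmAlternative
import Mathlib.Analysis.Complex.Basic

/-!
# Compact symmetric operators on a Hilbert space

The eigenvectors with nonzero eigenvalue of a compact symmetric operator span a dense subspace of
the orthogonal complement of the kernel.
-/

set_option autoImplicit false
set_option linter.unusedSectionVars false
set_option linter.style.haveILetI false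

noncomputable section

open scoped ComplexConjugate InnerProductSpace

namespace FA.PeterWeyl

variable {H : Type*} [NormedAddCommGroup H] [InnerProductSpace ℂ H] [CompleteSpace H]

/-- The span of the eigenvectors with nonzero eigenvalue. -/
def eigenSpan (T : H →L[ℂ] H) : Submodule ℂ H :=
  Submodule.span ℂ {e | ∃ z : ℂ, z ≠ 0 ∧ T e = z • e}

theorem eigenSpan_invariant (T : H →L[ℂ] H) : ∀ v ∈ eigenSpan T, T v ∈ eigenSpan T := fun v hv => by
  have h : eigenSpan T ≤ (eigenSpan T).comap (T : H →ₗ[ℂ] H) := by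
    refine Submodule.span_le.2 ?_
    rintro e ⟨z, hz, he⟩
    show T e ∈ eigenSpan T
    rw [he]
    exact Submodule.smul_mem _ z (Submodule.subset_span ⟨z, hz, he⟩)
  exact h hv

/-- **A compact symmetric operator kills what is orthogonal to its eigenvectors.** -/
theorem apply_eq_zero_of_orthogonal {T : H →L[ℂ] H} (hT : IsCompactOperator T)
    (hs : (T : H →ₗ[ℂ] H).IsSymmetric) {x : H} (hx : x ∈ (eigenSpan T)ᗮ) : T x = 0 := by
  set W : Submodule ℂ H := (eigenSpan T)ᗮ with hW
  have hinv : ∀ w ∈ W, (T : H →ₗ[ℂ] H) w ∈ W := fun w hw v hv => by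
    show ⟪v, T w⟫_ℂ = 0
    rw [show ⟪v, T w⟫_ℂ = ⟪T v, w⟫_ℂ from (hs v w).symm]
    exact hw _ (eigenSpan_invariant T v hv)
  haveI : CompleteSpace W := (Submodule.isClosed_orthogonal _).completeSpace_coe
  have hsymm : ((T : H →ₗ[ℂ] H).restrict hinv).IsSymmetric := fun a b => hs a b
  have hcomp : IsCompactOperator ((T : H →ₗ[ℂ] H).restrict hinv) := hT.restrict' hinv
  let S : W →L[ℂ] W := ContinuousLinearMap.mkOfIsCompactOperator hcomp
  have hS : ∀ w : W, (S w : H) = T (w : H) := fun w => rfl
  have hSc : IsCompactOperator S := hcomp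
  have hSs : IsSelfAdjoint S := ContinuousLinearMap.isSelfAdjoint_iff_isSymmetric.2 hsymm
  have hspec : ∀ z ∈ spectrum ℂ S, z = 0 := fun z hz => by
    by_contra h0
    obtain ⟨e, he⟩ := ((hSc.hasEigenvalue_iff_mem_spectrum h0).2 hz).exists_hasEigenvector
    have he1 : T (e : H) = z • (e : H) := by
      rw [← hS]
      exact congrArg Subtype.val (Module.End.mem_eigenspace_iff.1 he.1)
    have he2 : (e : H) ∈ eigenSpan T := Submodule.subset_span ⟨z, h0, he1⟩
    exact he.2 (Subtype.ext (inner_self_eq_zero.1 (e.2 _ he2)))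
  have hrad : spectralRadius ℂ S = 0 := by
    refine nonpos_iff_eq_zero.1 (iSup₂_le fun z hz => ?_)
    rw [hspec z hz, nnnorm_zero, ENNReal.coe_zero]
  have h0 : S = 0 := nnnorm_eq_zero.1 (ENNReal.coe_eq_zero.1
    ((ContinuousLinearMap.spectralRadius_eq_nnnorm S hSs).symm.trans hrad))
  have h := hS ⟨x, hx⟩
  rw [h0] at h
  exact h.symm

/-- **Splitting off the kernel.** -/
theorem exists_eigen_decomposition {T : H →L[ℂ] H} (hT : IsCompactOperator T)
    (hs : (T : H →ₗ[ℂ] H).IsSymmetric) (x : H) :
    ∃ k w : H, x = k + w ∧ k ∈ (eigenSpan T).topologicalClosure ∧ T w = 0 := by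
  set K := (eigenSpan T).topologicalClosure
  haveI : CompleteSpace K := (Submodule.isClosed_topologicalClosure _).completeSpace_coe
  obtain ⟨k, hk, w, hw, e⟩ := K.exists_add_mem_mem_orthogonal x
  exact ⟨k, w, e, hk, apply_eq_zero_of_orthogonal hT hs
    (Submodule.orthogonal_le (eigenSpan T).le_topologicalClosure hw)⟩

end FA.PeterWeyl

end
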