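import Fermat.Agent.PeterWeyl.Kernel
import Fermat.Agent.PeterWeyl.Spectral
import Mathlib.Topology.UrysohnsLemma

/-!
# Density of the functions in finite-dimensional translation invariant spaces

The range of convolution by a symmetric kernel is approximated uniformly by its eigenfunctions, and
the eigenspaces are finite-dimensional and invariant under right translations. An approximate
identity then shows that the continuous functions lying in such spaces are dense.
-/

set_option autoImplicit false
set_option linter.unusedSectionVars false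
set_option linter.style.haveILetI false

noncomputable section

open MeasureTheory MeasureTheory.Measure Topology Filter
open scoped ComplexConjugate

namespace FA.PeterWeyl

variable {G : Type*} [TopologicalSpace G] [Group G] [IsTopologicalGroup G] [CompactSpace G]
  [T2Space G]

/-- A finite-dimensional space of functions invariant under right translations. -/
def IsFinInv (V : Submodule ℂ C(G, ℂ)) : Prop :=
  FiniteDimensional ℂ V ∧ ∀ g : G, ∀ φ ∈ V, rmap g φ ∈ V

variable (G) in
/-- The sum of all finite-dimensional invariant spaces of functions. -/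
def finInv : Submodule ℂ C(G, ℂ) :=
  ⨆ V : {V : Submodule ℂ C(G, ℂ) // IsFinInv V}, (V : Submodule ℂ C(G, ℂ))

theorem le_finInv {V : Submodule ℂ C(G, ℂ)} (hV : IsFinInv V) : V ≤ finInv G :=
  le_iSup (fun V : {V : Submodule ℂ C(G, ℂ) // IsFinInv V} => (V : Submodule ℂ C(G, ℂ))) ⟨V, hV⟩

variable [MeasurableSpace G] [BorelSpace G] (μ : Measure G) [IsMulLeftInvariant μ]
  [IsProbabilityMeasure μ]

/-- An eigenspace of convolution is finite-dimensional and invariant. -/
theorem isFinInv_eigenspace (f : C(G, ℂ)) {z : ℂ} (hz : z ≠ 0) :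
    IsFinInv (Module.End.eigenspace (convP μ f : C(G, ℂ) →ₗ[ℂ] C(G, ℂ)) z) := by
  refine ⟨finiteDimensional_eigenspace (isCompactOperator_convP μ f) hz, fun g φ hφ => ?_⟩
  rw [Module.End.mem_eigenspace_iff] at hφ ⊢
  show convP μ f (rmap g φ) = z • rmap g φ
  rw [convP_rmap, show convP μ f φ = z • φ from hφ, map_smul]

/-- **The range of a symmetric convolution is approximated by eigenfunctions.** -/
theorem convC_mem_closure {f : C(G, ℂ)} (hf : ∀ z, conj (f z⁻¹) = f z) (x : Lp ℂ 2 μ) :
    convC μ f x ∈ closure (finInv G : Set C(G, ℂ)) := by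
  obtain ⟨k, w, rfl, hk, hw⟩ :=
    exists_eigen_decomposition (isCompactOperator_convT μ f) (isSymmetric_convT μ hf) x
  have hw' : convC μ f w = 0 := toL2_injective μ (by rw [map_zero]; exact hw)
  rw [map_add, hw', add_zero]
  have hle : eigenSpan (convT μ f) ≤
      (finInv G).comap (convC μ f : Lp ℂ 2 μ →ₗ[ℂ] C(G, ℂ)) := by
    refine Submodule.span_le.2 ?_
    rintro e ⟨z, hz, he⟩
    refine le_finInv (isFinInv_eigenspace μ f hz) (Module.End.mem_eigenspace_iff.2 ?_)
    show convP μ f (convC μ f e) = z • convC μ f e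
    rw [convP_apply, ← convT_apply, he, map_smul]
  exact map_mem_closure (convC μ f).continuous hk fun e he => hle he

/-- **Approximate identity.** -/
theorem exists_kernel_approx (F : C(G, ℂ)) {ε : ℝ} (hε : 0 < ε) :
    ∃ f : C(G, ℂ), (∀ z, conj (f z⁻¹) = f z) ∧ ‖convC μ f (toL2 μ F) - F‖ ≤ ε := by
  haveI := isHaarMeasure_of_invariant μ
  haveI := isMulRightInvariant_compact μ
  haveI := isInvInvariant_compact μ
  let L : C(G, C(G, ℂ)) := ContinuousMap.curry ⟨fun p : G × G => F (p.1⁻¹ * p.2),
    F.continuous.comp (continuous_fst.inv.mul continuous_snd)⟩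
  set U : Set G := {z | dist (L z) F < ε} with hU
  have hUo : IsOpen U := isOpen_lt (L.continuous.dist continuous_const) continuous_const
  have h1U : (1 : G) ∈ U := by
    have : L 1 = F := ContinuousMap.ext fun x => by simp [L]
    simp only [hU, Set.mem_ofPred_eq, this, dist_self, hε]
  obtain ⟨u, hu0, hu1, hu01⟩ := exists_continuous_zero_one_of_isClosed
    (s := (U ∩ U⁻¹)ᶜ) (t := {1}) (hUo.inter hUo.inv).isClosed_compl isClosed_singleton (by
      rw [Set.disjoint_singleton_right]
      exact fun h => h ⟨h1U, by rw [Set.mem_inv, inv_one]; exact h1U⟩)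
  let h : G → ℝ := fun z => u z + u z⁻¹
  have hc : Continuous h := u.continuous.add (u.continuous.comp continuous_inv)
  have hh0 : ∀ z, 0 ≤ h z := fun z => add_nonneg (hu01 z).1 (hu01 _).1
  have hsupp : ∀ z, z ∉ U → h z = 0 := fun z hz => by
    have e1 : u z = 0 := hu0 fun hh => hz hh.1
    have e2 : u z⁻¹ = 0 := hu0 fun hh => hz (by simpa using hh.2)
    show u z + u z⁻¹ = 0
    rw [e1, e2, add_zero]
  have hh1 : h 1 ≠ 0 := by
    have e : u 1 = 1 := hu1 rfl
    simp only [h, inv_one, e]
    norm_num
  set c := ∫ z, h z ∂μ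
  have hcpos : 0 < c :=
    Continuous.integral_pos_of_hasCompactSupport_nonneg_nonzero (x := (1 : G)) hc
      (HasCompactSupport.of_compactSpace _) hh0 hh1
  refine ⟨⟨fun z => ((h z / c : ℝ) : ℂ), Complex.continuous_ofReal.comp (hc.div_const c)⟩,
    fun z => ?_, ?_⟩
  · show conj (((h z⁻¹ / c : ℝ)) : ℂ) = ((h z / c : ℝ) : ℂ)
    rw [Complex.conj_ofReal]
    simp only [h, inv_inv, add_comm]
  refine (ContinuousMap.norm_le _ hε.le).2 fun x => ?_
  have hint : ∫ y, h (x * y⁻¹) ∂μ = c := by
    rw [← integral_mul_right_eq_self (fun y => h (x * y⁻¹)) x]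
    simp only [mul_inv_rev, mul_inv_cancel_left]
    exact integral_inv_eq_self h μ
  have hcx : Continuous fun y => h (x * y⁻¹) / c :=
    (hc.comp (continuous_const.mul continuous_inv)).div_const c
  rw [ContinuousMap.sub_apply, convC_toL2]
  show ‖(∫ y, ((h (x * y⁻¹) / c : ℝ) : ℂ) * F y ∂μ) - F x‖ ≤ ε
  have hone : ∫ y, ((h (x * y⁻¹) / c : ℝ) : ℂ) * F x ∂μ = F x := by
    rw [integral_mul_const, integral_complex_ofReal, integral_div, hint, div_self hcpos.ne',
      Complex.ofReal_one, one_mul]
  rw [show F x = ∫ y, ((h (x * y⁻¹) / c : ℝ) : ℂ) * F x ∂μ from hone.symm,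
    ← integral_sub (integrable_cont μ (by fun_prop)) (integrable_cont μ (by fun_prop))]
  calc _ ≤ ∫ y, h (x * y⁻¹) / c * ε ∂μ := by
        refine norm_integral_le_of_norm_le
          (integrable_cont μ (hcx.mul continuous_const)) (Eventually.of_forall fun y => ?_)
        rw [← mul_sub, norm_mul, Complex.norm_of_nonneg (div_nonneg (hh0 _) hcpos.le)]
        by_cases hy : x * y⁻¹ ∈ U
        · refine mul_le_mul_of_nonneg_left ?_ (div_nonneg (hh0 _) hcpos.le)
          refine le_trans ?_ (le_of_lt hy)
          rw [dist_eq_norm]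
          refine le_trans (le_of_eq ?_) ((L (x * y⁻¹) - F).norm_coe_le_norm x)
          simp [L]
        · rw [hsupp _ hy, zero_div, zero_mul, zero_mul]
    _ = ε := by rw [integral_mul_const, integral_div, hint, div_self hcpos.ne', one_mul]

include μ in
/-- **The functions in finite-dimensional invariant spaces are dense.** -/
theorem dense_finInv_aux : Dense (finInv G : Set C(G, ℂ)) := fun F => by
  rw [← closure_closure]
  refine Metric.mem_closure_iff.2 fun ε hε => ?_
  obtain ⟨f, hf, hle⟩ := exists_kernel_approx μ F (half_pos hε)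
  refine ⟨_, convC_mem_closure μ hf (toL2 μ F), ?_⟩
  rw [dist_comm, dist_eq_norm]
  linarith

omit [MeasurableSpace G] [BorelSpace G] in
/-- **The functions in finite-dimensional invariant spaces are dense.** -/
theorem dense_finInv : Dense (finInv G : Set C(G, ℂ)) := by
  letI : MeasurableSpace G := borel G
  haveI : BorelSpace G := ⟨rfl⟩
  let K₀ : TopologicalSpace.PositiveCompacts G := ⟨⟨Set.univ, isCompact_univ⟩, by simp⟩
  haveI : IsProbabilityMeasure (haarMeasure K₀) := ⟨haarMeasure_self (K₀ := K₀)⟩
  exact dense_finInv_aux (haarMeasure K₀)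

end FA.PeterWeyl

end
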