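import Fermat.Agent.PeterWeyl.Defs
import Mathlib.Analysis.InnerProductSpace.PiL2
import Mathlib.Analysis.InnerProductSpace.Projection.Basic
import Mathlib.Analysis.InnerProductSpace.Projection.FiniteDimensional

/-!
# Decomposition of finite-dimensional unitary representations

A finite-dimensional invariant subspace of a unitary representation is a sum of irreducible ones,
and an orthonormal basis turns an irreducible one into an irreducible unitary matrix representation.
Hence the coefficient functions `g ↦ ⟪a, ρ g b⟫` with `b` in such a subspace are combinations of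
the coefficient functions of the irreducible unitary matrix representations.
-/

set_option autoImplicit false
set_option linter.unusedSectionVars false
set_option linter.style.haveILetI false

noncomputable section

open scoped Matrix InnerProductSpace ComplexConjugate

namespace FA.PeterWeyl

variable {G H : Type*} [TopologicalSpace G] [Group G] [NormedAddCommGroup H]
  [InnerProductSpace ℂ H] {ρ : G →* (H →L[ℂ] H)}

theorem rep_mul_apply (ρ : G →* (H →L[ℂ] H)) (g h : G) (v : H) : ρ (g * h) v = ρ g (ρ h v) := by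
  rw [map_mul]
  rfl

theorem rep_one_apply (ρ : G →* (H →L[ℂ] H)) (v : H) : ρ 1 v = v := by
  rw [map_one]
  rfl

theorem IsUnitaryRep.inner_map (hρ : IsUnitaryRep ρ) (g : G) (v w : H) :
    ⟪ρ g v, ρ g w⟫_ℂ = ⟪v, w⟫_ℂ :=
  LinearIsometry.inner_map_map
    ({ toLinearMap := (ρ g : H →ₗ[ℂ] H), norm_map' := hρ.norm_map g } : H →ₗᵢ[ℂ] H) v w

theorem IsUnitaryRep.inner_inv (hρ : IsUnitaryRep ρ) (g : G) (v w : H) :
    ⟪v, ρ g w⟫_ℂ = ⟪ρ g⁻¹ v, w⟫_ℂ := by
  rw [← hρ.inner_map g (ρ g⁻¹ v) w, ← rep_mul_apply, mul_inv_cancel, rep_one_apply]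

/-- The orthogonal complement of an invariant subspace is invariant. -/
theorem IsUnitaryRep.invariant_orthogonal (hρ : IsUnitaryRep ρ) {V : Submodule ℂ H}
    (hV : IsInvariant ρ V) : IsInvariant ρ Vᗮ := fun g v hv w hw => by
  rw [hρ.inner_inv]
  exact hv _ (hV g⁻¹ w hw)

theorem IsInvariant.inf {V W : Submodule ℂ H} (hV : IsInvariant ρ V) (hW : IsInvariant ρ W) :
    IsInvariant ρ (V ⊓ W) := fun g v hv => ⟨hV g v hv.1, hW g v hv.2⟩

variable (ρ) in
/-- The sum of the irreducible finite-dimensional invariant subspaces. -/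
def irredSup : Submodule ℂ H :=
  ⨆ V : {V : Submodule ℂ H // IsIrreducibleSub ρ V}, (V : Submodule ℂ H)

theorem le_irredSup {V : Submodule ℂ H} (hV : IsIrreducibleSub ρ V) : V ≤ irredSup ρ :=
  le_iSup (fun V : {V : Submodule ℂ H // IsIrreducibleSub ρ V} => (V : Submodule ℂ H)) ⟨V, hV⟩

/-- **Complete reducibility.** -/
theorem IsUnitaryRep.finInvariant_le_irredSup (hρ : IsUnitaryRep ρ) :
    ∀ (V : Submodule ℂ H) [FiniteDimensional ℂ V], IsInvariant ρ V → V ≤ irredSup ρ := by
  suffices key : ∀ (n : ℕ) (V : Submodule ℂ H), FiniteDimensional ℂ V →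
      Module.finrank ℂ V = n → IsInvariant ρ V → V ≤ irredSup ρ from
    fun V hf hV => key _ V hf rfl hV
  intro n
  induction n using Nat.strong_induction_on with
  | _ n ih =>
    intro V hf hn hV
    by_cases h0 : V = ⊥
    · rw [h0]
      exact bot_le
    by_cases hmin : ∀ W ≤ V, IsInvariant ρ W → W = ⊥ ∨ W = V
    · exact le_irredSup ⟨hf, hV, h0, hmin⟩
    push Not at hmin
    obtain ⟨W, hWV, hW, hW0, hWV'⟩ := hmin
    haveI := Submodule.finiteDimensional_of_le hWV
    haveI := Submodule.finiteDimensional_of_le (inf_le_right (a := Wᗮ) (b := V))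
    rw [← Submodule.sup_orthogonal_inf_of_hasOrthogonalProjection hWV]
    refine sup_le (ih _ ?_ W inferInstance rfl hW)
      (ih _ ?_ _ inferInstance rfl ((hρ.invariant_orthogonal hW).inf hV))
    · exact hn ▸ Submodule.finrank_lt_finrank_of_lt (lt_of_le_of_ne hWV hWV')
    · refine hn ▸ Submodule.finrank_lt_finrank_of_lt (lt_of_le_of_ne inf_le_right fun e => hW0 ?_)
      exact le_bot_iff.1 fun w hw =>
        (Submodule.mem_bot ℂ).2 (inner_self_eq_zero.1 ((e.ge (hWV hw)).1 w hw))

/-- The coefficient function `g ↦ ⟪a, ρ g b⟫`. -/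
def coeffFun (hρ : IsUnitaryRep ρ) (a : H) : H →ₗ[ℂ] C(G, ℂ) where
  toFun b := ⟨fun g => ⟪a, ρ g b⟫_ℂ, continuous_const.inner (hρ.continuous_apply b)⟩
  map_add' b c := ContinuousMap.ext fun g => by simp [inner_add_right]
  map_smul' z b := ContinuousMap.ext fun g => by simp [inner_smul_right]

theorem coeffFun_apply (hρ : IsUnitaryRep ρ) (a b : H) (g : G) :
    coeffFun hρ a b g = ⟪a, ρ g b⟫_ℂ := rfl

/-- **An irreducible subrepresentation in an orthonormal basis.** -/
theorem IsIrreducibleSub.exists_matrix (hρ : IsUnitaryRep ρ) {V : Submodule ℂ H}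
    (hV : IsIrreducibleSub ρ V) :
    ∃ (n : ℕ) (π : G →* Matrix.unitaryGroup (Fin n) ℂ) (b : Fin n → H),
      Continuous π ∧ IsIrreducibleMat π ∧ V ≤ Submodule.span ℂ (Set.range b) ∧
      ∀ g j, ρ g (b j) = ∑ i, (π g : Matrix (Fin n) (Fin n) ℂ) i j • b i := by
  haveI := hV.finiteDimensional
  set n := Module.finrank ℂ V
  set o := stdOrthonormalBasis ℂ V
  set b : Fin n → H := fun i => (o i : H)
  let M : G → Matrix (Fin n) (Fin n) ℂ := fun g => Matrix.of fun i j => ⟪b i, ρ g (b j)⟫_ℂ
  have hexp : ∀ v ∈ V, v = ∑ i, ⟪b i, v⟫_ℂ • b i := fun v hv => by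
    have h := congrArg V.subtype (o.sum_repr' ⟨v, hv⟩)
    rw [map_sum] at h
    simpa [b] using h.symm
  have hbV : ∀ i, b i ∈ V := fun i => (o i).2
  have hlin : ∀ g j, ρ g (b j) = ∑ i, M g i j • b i := fun g j =>
    hexp _ (hV.invariant g _ (hbV j))
  have hon : ∀ i j, ⟪b i, b j⟫_ℂ = if i = j then 1 else 0 :=
    fun i j => orthonormal_iff_ite.1 o.orthonormal i j
  have hone : M 1 = 1 := by
    ext i j
    simp only [M, Matrix.of_apply, rep_one_apply, hon, Matrix.one_apply]
  have hmul : ∀ g h, M (g * h) = M g * M h := fun g h => by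
    ext i j
    show ⟪b i, ρ (g * h) (b j)⟫_ℂ = _
    rw [rep_mul_apply, hlin h j, map_sum, inner_sum, Matrix.mul_apply]
    refine Finset.sum_congr rfl fun k _ => ?_
    rw [map_smul, inner_smul_right, mul_comm]
    rfl
  have hstar : ∀ g, star (M g) = M g⁻¹ := fun g => by
    ext i j
    show conj ⟪b j, ρ g (b i)⟫_ℂ = ⟪b i, ρ g⁻¹ (b j)⟫_ℂ
    rw [inner_conj_symm, hρ.inner_inv g⁻¹, inv_inv]
  let π : G →* Matrix.unitaryGroup (Fin n) ℂ :=
    { toFun := fun g => ⟨M g, Matrix.mem_unitaryGroup_iff.2 (by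
        rw [hstar, ← hmul, mul_inv_cancel, hone])⟩
      map_one' := Subtype.ext hone
      map_mul' := fun g h => Subtype.ext (hmul g h) }
  refine ⟨n, π, b, (continuous_matrix fun i j =>
    continuous_const.inner (hρ.continuous_apply _)).subtype_mk _, ⟨?_, fun W hW => ?_⟩,
    fun v hv => ?_, hlin⟩
  · exact Nat.pos_of_ne_zero fun h => hV.ne_bot (Submodule.finrank_eq_zero.1 h)
  · let L : (Fin n → ℂ) →ₗ[ℂ] H := Fintype.linearCombination ℂ b
    have hL : Function.Injective L := (injective_iff_map_eq_zero _).2 fun w hw => funext fun i => by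
      have h := congrArg (fun v => ⟪b i, v⟫_ℂ) hw
      simp only [L, Fintype.linearCombination_apply, inner_sum, inner_smul_right, hon,
        inner_zero_right, mul_ite, mul_one, mul_zero, Finset.sum_ite_eq, Finset.mem_univ,
        if_true] at h
      exact h
    have hcomm : ∀ g w, ρ g (L w) = L (M g *ᵥ w) := fun g w => by
      simp only [L, Fintype.linearCombination_apply, map_sum, map_smul, hlin, Finset.smul_sum,
        smul_smul, Matrix.mulVec, dotProduct, Finset.sum_smul]
      rw [Finset.sum_comm]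
      exact Finset.sum_congr rfl fun i _ => Finset.sum_congr rfl fun j _ => by rw [mul_comm]
    have hle : W.map L ≤ V := by
      rintro _ ⟨w, -, rfl⟩
      simp only [L, Fintype.linearCombination_apply]
      exact Submodule.sum_mem _ fun i _ => Submodule.smul_mem _ _ (hbV i)
    have hinv : IsInvariant ρ (W.map L) := by
      rintro g _ ⟨w, hw, rfl⟩
      exact ⟨_, hW g w hw, (hcomm g w).symm⟩
    refine (hV.minimal _ hle hinv).imp (fun h => ?_) fun h => ?_
    · exact le_bot_iff.1 fun w hw => (Submodule.mem_bot ℂ).2 (hL (by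
        rw [map_zero]
        exact (Submodule.mem_bot ℂ).1 (h ▸ ⟨w, hw, rfl⟩)))
    · refine eq_top_iff.2 fun w _ => ?_
      have hw : L w ∈ W.map L := h.symm ▸ (by
        simp only [L, Fintype.linearCombination_apply]
        exact Submodule.sum_mem _ fun i _ => Submodule.smul_mem _ _ (hbV i))
      obtain ⟨w', hw', e⟩ := hw
      exact hL e ▸ hw'
  · rw [hexp v hv]
    exact Submodule.sum_mem _ fun i _ =>
      Submodule.smul_mem _ _ (Submodule.subset_span (Set.mem_range_self i))

/-- **Coefficients of finite-dimensional invariant subspaces.** -/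
theorem IsUnitaryRep.coeffFun_mem_span (hρ : IsUnitaryRep ρ) {V : Submodule ℂ H}
    [FiniteDimensional ℂ V] (hV : IsInvariant ρ V) (a : H) {v : H} (hv : v ∈ V) :
    coeffFun hρ a v ∈ Submodule.span ℂ (coeffSet G) := by
  have h : irredSup ρ ≤ (Submodule.span ℂ (coeffSet G)).comap (coeffFun hρ a) := by
    refine iSup_le fun ⟨V₀, hV₀⟩ => ?_
    obtain ⟨n, π, b, hc, hirr, hle, hlin⟩ := hV₀.exists_matrix hρ
    refine hle.trans (Submodule.span_le.2 ?_)
    rintro _ ⟨j, rfl⟩
    let f : Fin n → C(G, ℂ) := fun i => ⟨fun g => (π g : Matrix (Fin n) (Fin n) ℂ) i j,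
      (continuous_apply_apply i j).comp (continuous_subtype_val.comp hc)⟩
    have e : coeffFun hρ a (b j) = ∑ i, ⟪a, b i⟫_ℂ • f i := by
      ext g
      simp only [coeffFun_apply, hlin, inner_sum, inner_smul_right, ContinuousMap.sum_apply,
        ContinuousMap.smul_apply, smul_eq_mul, f, ContinuousMap.coe_mk, mul_comm]
    show coeffFun hρ a (b j) ∈ Submodule.span ℂ (coeffSet G)
    rw [e]
    exact Submodule.sum_mem _ fun i _ => Submodule.smul_mem _ _
      (Submodule.subset_span ⟨n, π, hc, hirr, i, j, fun g => rfl⟩)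
  exact h (hρ.finInvariant_le_irredSup V hV hv)

end FA.PeterWeyl

end
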