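import Fermat.Agent.PeterWeyl.Density
import Fermat.Agent.PeterWeyl.Representation
import Mathlib.MeasureTheory.Function.LpSpace.Basic
import Mathlib.Topology.UniformSpace.UniformApproximation

/-!
# The Peter-Weyl theorem

The right regular representation on `L²` is a strongly continuous unitary representation, so every
finite-dimensional right invariant space of continuous functions consists of combinations of
coefficients of irreducible unitary matrix representations. These coefficients therefore span a
dense subspace of the continuous functions, separate points, and determine a continuous function.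
-/

set_option autoImplicit false
set_option linter.unusedSectionVars false
set_option linter.style.haveILetI false

noncomputable section

open MeasureTheory MeasureTheory.Measure Topology Filter
open scoped ComplexConjugate InnerProductSpace

namespace FA.PeterWeyl

variable {G : Type*} [TopologicalSpace G] [Group G] [IsTopologicalGroup G] [CompactSpace G]
  [T2Space G] [MeasurableSpace G] [BorelSpace G] (μ : Measure G) [IsMulLeftInvariant μ]
  [IsProbabilityMeasure μ]

theorem measurePreserving_right (g : G) : MeasurePreserving (fun x => x * g) μ μ := by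
  haveI := isMulRightInvariant_compact μ
  exact measurePreserving_mul_right μ g

/-- Right translation on `L²`. -/
def regMap (g : G) : Lp ℂ 2 μ →ₗᵢ[ℂ] Lp ℂ 2 μ :=
  Lp.compMeasurePreservingₗᵢ ℂ (fun x => x * g) (measurePreserving_right μ g)

theorem regMap_toL2 (g : G) (φ : C(G, ℂ)) : regMap μ g (toL2 μ φ) = toL2 μ (rmap g φ) := by
  refine Lp.ext ?_
  have h := (measurePreserving_right μ g).quasiMeasurePreserving.ae_eq_comp
    (ContinuousMap.coeFn_toLp (p := 2) (𝕜 := ℂ) μ φ)
  exact ((Lp.coeFn_compMeasurePreserving _ _).trans h).trans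
    (ContinuousMap.coeFn_toLp (p := 2) (𝕜 := ℂ) μ (rmap g φ)).symm

/-- The right regular representation on `L²`. -/
def regRep : G →* (Lp ℂ 2 μ →L[ℂ] Lp ℂ 2 μ) where
  toFun g := (regMap μ g).toContinuousLinearMap
  map_one' := ContinuousLinearMap.ext fun v => by
    show regMap μ 1 v = v
    refine congrFun ((denseRange_toL2 μ).equalizer (regMap μ 1).continuous continuous_id
      (funext fun φ => ?_)) v
    show regMap μ 1 (toL2 μ φ) = toL2 μ φ
    rw [regMap_toL2]
    exact congrArg (toL2 μ) (ContinuousMap.ext fun x => by rw [rmap_apply, mul_one])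
  map_mul' g h := ContinuousLinearMap.ext fun v => by
    show regMap μ (g * h) v = regMap μ g (regMap μ h v)
    refine congrFun ((denseRange_toL2 μ).equalizer (regMap μ (g * h)).continuous
      ((regMap μ g).continuous.comp (regMap μ h).continuous) (funext fun φ => ?_)) v
    show regMap μ (g * h) (toL2 μ φ) = regMap μ g (regMap μ h (toL2 μ φ))
    rw [regMap_toL2, regMap_toL2, regMap_toL2]
    exact congrArg (toL2 μ) (ContinuousMap.ext fun x => by simp [rmap_apply, mul_assoc])

theorem regRep_toL2 (g : G) (φ : C(G, ℂ)) : regRep μ g (toL2 μ φ) = toL2 μ (rmap g φ) :=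
  regMap_toL2 μ g φ

/-- **The regular representation is unitary and strongly continuous.** -/
theorem isUnitaryRep_regRep : IsUnitaryRep (regRep μ) where
  norm_map g v := (regMap μ g).norm_map v
  continuous_apply v := by
    refine continuous_of_uniform_approx_of_continuous fun U hU => ?_
    obtain ⟨ε, hε, hsub⟩ := Metric.mem_uniformity_dist.1 hU
    obtain ⟨φ, hφ⟩ := (denseRange_toL2 μ).exists_dist_lt v hε
    refine ⟨fun g => regRep μ g (toL2 μ φ), ?_, fun g => hsub ?_⟩
    · simp only [regRep_toL2]
      exact (toL2 μ).continuous.comp (continuous_rmap φ)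
    · show dist (regMap μ g v) (regMap μ g (toL2 μ φ)) < ε
      rw [(regMap μ g).dist_map]
      exact hφ

include μ in
/-- Every finite-dimensional invariant space of functions consists of coefficient functions. -/
theorem finInv_le_span_coeff : finInv G ≤ Submodule.span ℂ (coeffSet G) := by
  refine iSup_le fun ⟨V, hfin, hinv⟩ φ hφ => ?_
  haveI : FiniteDimensional ℂ V := hfin
  set V' : Submodule ℂ (Lp ℂ 2 μ) := V.map (toL2 μ : C(G, ℂ) →ₗ[ℂ] Lp ℂ 2 μ)
  have hV' : IsInvariant (regRep μ) V' := by
    rintro g _ ⟨ψ, hψ, rfl⟩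
    exact ⟨rmap g ψ, hinv g ψ hψ, (regRep_toL2 μ g ψ).symm⟩
  set o := stdOrthonormalBasis ℂ V'
  have hmem : ∀ i, ∃ ψ ∈ V, toL2 μ ψ = (o i : Lp ℂ 2 μ) := fun i => (o i).2
  choose ψ hψ hψe using hmem
  have key : ∀ g, φ g =
      ∑ i, ψ i 1 * ⟪(o i : Lp ℂ 2 μ), regRep μ g (toL2 μ φ)⟫_ℂ := fun g => by
    have hm : regRep μ g (toL2 μ φ) ∈ V' := hV' g _ ⟨φ, hφ, rfl⟩
    have h1 := congrArg V'.subtype (o.sum_repr' ⟨_, hm⟩)
    rw [_root_.map_sum] at h1
    simp only [map_smul, Submodule.coe_subtype, Submodule.coe_inner] at h1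
    rw [regRep_toL2] at h1
    simp only [← hψe, ← map_smul, ← _root_.map_sum] at h1
    have h2 := toL2_injective μ h1
    have h3 := congrArg (fun F : C(G, ℂ) => F 1) h2
    simp only [ContinuousMap.sum_apply, ContinuousMap.smul_apply, smul_eq_mul, rmap_apply,
      one_mul] at h3
    simp only [← hψe, regRep_toL2]
    rw [← h3]
    exact Finset.sum_congr rfl fun i _ => mul_comm _ _
  have e : φ = ∑ i, ψ i 1 •
      coeffFun (isUnitaryRep_regRep μ) (o i : Lp ℂ 2 μ) (toL2 μ φ) := by
    ext g
    simp only [ContinuousMap.sum_apply, ContinuousMap.smul_apply, coeffFun_apply, smul_eq_mul]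
    exact key g
  rw [e]
  exact Submodule.sum_mem _ fun i _ => Submodule.smul_mem _ _
    ((isUnitaryRep_regRep μ).coeffFun_mem_span hV' _ ⟨φ, hφ, rfl⟩)

omit [MeasurableSpace G] [BorelSpace G] in
/-- **The Peter-Weyl theorem.** -/
theorem dense_span_coeff : Dense (Submodule.span ℂ (coeffSet G) : Set C(G, ℂ)) := by
  letI : MeasurableSpace G := borel G
  haveI : BorelSpace G := ⟨rfl⟩
  let K₀ : TopologicalSpace.PositiveCompacts G := ⟨⟨Set.univ, isCompact_univ⟩, by simp⟩
  haveI : IsProbabilityMeasure (haarMeasure K₀) := ⟨haarMeasure_self (K₀ := K₀)⟩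
  exact dense_finInv.mono (finInv_le_span_coeff (haarMeasure K₀))

/-- **A continuous function is determined by its coefficients.** -/
theorem eq_zero_of_coeff {F : C(G, ℂ)}
    (h : ∀ f ∈ coeffSet G, ∫ x, conj (f x) * F x ∂μ = 0) : F = 0 := by
  refine toL2_injective μ ?_
  rw [map_zero, ← inner_self_eq_zero (𝕜 := ℂ)]
  refine congrFun (Continuous.ext_on dense_span_coeff (f := fun f : C(G, ℂ) =>
    ⟪toL2 μ f, toL2 μ F⟫_ℂ) (g := fun _ => 0)
    ((toL2 μ).continuous.inner continuous_const) continuous_const fun f hf => ?_) F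
  refine Submodule.span_induction (p := fun f _ => ⟪toL2 μ f, toL2 μ F⟫_ℂ = 0)
    (fun f hf => ?_) ?_ (fun a b _ _ ha hb => ?_) (fun z a _ ha => ?_) hf
  · rw [inner_toL2]
    exact h f hf
  · rw [map_zero, inner_zero_left]
  · rw [map_add, inner_add_left, ha, hb, add_zero]
  · rw [map_smul, inner_smul_left, ha, mul_zero]

omit [MeasurableSpace G] [BorelSpace G] in
/-- **The irreducible unitary representations separate points.** -/
theorem exists_coeff_ne {x y : G} (hxy : x ≠ y) : ∃ f ∈ coeffSet G, f x ≠ f y := by
  by_contra hall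
  push Not at hall
  obtain ⟨u, hux, huy, -⟩ := exists_continuous_zero_one_of_isClosed
    (s := ({x} : Set G)) (t := {y}) isClosed_singleton isClosed_singleton
    (by simpa using hxy)
  have e := congrFun (Continuous.ext_on dense_span_coeff (f := fun f : C(G, ℂ) => f x)
    (g := fun f : C(G, ℂ) => f y) (continuous_eval_const x) (continuous_eval_const y) fun f hf =>
      Submodule.span_induction (p := fun f _ => f x = f y) hall rfl
        (fun a b _ _ ha hb => by simp [ha, hb]) (fun z a _ ha => by simp [ha]) hf)
    ⟨fun z => ((u z : ℝ) : ℂ), Complex.continuous_ofReal.comp u.continuous⟩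
  have ex : u x = 0 := hux rfl
  have ey : u y = 1 := huy rfl
  simp [ex, ey] at e

end FA.PeterWeyl

end
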