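import Fermat.Agent.PeterWeyl.Algebraic
import Fermat.Agent.PeterWeyl.Operations
import Fermat.Agent.PeterWeyl.Main

/-!
# Tannaka duality for compact groups

A family of unitary matrices compatible with intertwiners and Kronecker products gives a well
defined multiplicative value on every polynomial in the coefficient functions and their conjugates,
so in each representation it lies in the image of the group, and by compactness it is evaluation at
one element.
-/

set_option autoImplicit false
set_option linter.unusedSectionVars false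
set_option linter.style.haveILetI false

noncomputable section

open MeasureTheory MeasureTheory.Measure Topology Filter
open scoped Matrix ComplexConjugate

namespace FA.PeterWeyl

variable {G : Type*} [TopologicalSpace G] [Group G] [IsTopologicalGroup G] [CompactSpace G]
  [T2Space G]
  {α : ∀ n : ℕ, (G →* Matrix.unitaryGroup (Fin n) ℂ) → Matrix.unitaryGroup (Fin n) ℂ}

theorem family_trivial (hα : IsTannakaFamily α) :
    α 1 (1 : G →* Matrix.unitaryGroup (Fin 1) ℂ) = 1 := by
  set t : G →* Matrix.unitaryGroup (Fin 1) ℂ := 1 with ht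
  have hk : kronRep t t = t := MonoidHom.ext fun g => by
    show kronHom 1 1 (t g, t g) = t g
    rw [ht, MonoidHom.one_apply]
    exact map_one (kronHom 1 1)
  have h := hα.tensor 1 1 t t continuous_const continuous_const
  rw [hk] at h
  set a := (α 1 t : Matrix (Fin 1) (Fin 1) ℂ) 0 0 with ha
  have h00 : a = a * a := by
    have e := congrArg (fun M : Matrix.unitaryGroup (Fin (1 * 1)) ℂ =>
      (M : Matrix (Fin (1 * 1)) (Fin (1 * 1)) ℂ) (finProdFinEquiv ((0 : Fin 1), (0 : Fin 1)))
        (finProdFinEquiv ((0 : Fin 1), (0 : Fin 1)))) h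
    simp only [kronHom_apply] at e
    haveI : Subsingleton (Fin (1 * 1)) := inferInstanceAs (Subsingleton (Fin 1))
    rwa [show finProdFinEquiv ((0 : Fin 1), (0 : Fin 1)) = (0 : Fin (1 * 1)) from
      Subsingleton.elim _ _] at e
  have hu := congrFun (congrFun (Matrix.mem_unitaryGroup_iff.1 (α 1 t).2) 0) 0
  simp only [Matrix.mul_apply, Fin.sum_univ_one, Matrix.star_apply, Matrix.one_apply_eq, ← ha] at hu
  have hne : a ≠ 0 := fun e => by simp [e] at hu
  refine Subtype.ext (Matrix.ext fun i j => ?_)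
  rw [Subsingleton.elim i 0, Subsingleton.elim j 0, Matrix.UnitaryGroup.one_val,
    Matrix.one_apply_eq]
  exact mul_left_cancel₀ hne (by rw [mul_one]; exact h00.symm)

/-- The family respects direct sums. -/
theorem family_sum (hα : IsTannakaFamily α) {n m : ℕ} {π : G →* Matrix.unitaryGroup (Fin n) ℂ}
    {π' : G →* Matrix.unitaryGroup (Fin m) ℂ} (hc : Continuous π) (hc' : Continuous π') :
    α (n + m) (sumRep π π') = sumHom n m (α n π, α m π') := by
  let J : Matrix (Fin (n + m)) (Fin n) ℂ := Matrix.of fun a j =>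
    Sum.elim (fun i => if i = j then 1 else 0) (fun _ => 0) (finSumFinEquiv.symm a)
  let J' : Matrix (Fin (n + m)) (Fin m) ℂ := Matrix.of fun a j =>
    Sum.elim (fun _ => 0) (fun i => if i = j then 1 else 0) (finSumFinEquiv.symm a)
  have hsum : ∀ (A : Matrix.unitaryGroup (Fin n) ℂ) (B : Matrix.unitaryGroup (Fin m) ℂ) a b,
      (sumHom n m (A, B) : Matrix (Fin (n + m)) (Fin (n + m)) ℂ) a b =
      Matrix.fromBlocks (A : Matrix (Fin n) (Fin n) ℂ) 0 0 (B : Matrix (Fin m) (Fin m) ℂ)
        (finSumFinEquiv.symm a) (finSumFinEquiv.symm b) := fun A B a b => rfl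
  have hJ : ∀ (M : Matrix (Fin (n + m)) (Fin (n + m)) ℂ) a j,
      (M * J) a j = M a (finSumFinEquiv (Sum.inl j)) := fun M a j => by
    rw [Matrix.mul_apply, ← finSumFinEquiv.sum_comp, Fintype.sum_sum_type]
    simp [J]
  have hJ' : ∀ (M : Matrix (Fin (n + m)) (Fin (n + m)) ℂ) a j,
      (M * J') a j = M a (finSumFinEquiv (Sum.inr j)) := fun M a j => by
    rw [Matrix.mul_apply, ← finSumFinEquiv.sum_comp, Fintype.sum_sum_type]
    simp [J']
  have hJm : ∀ (M : Matrix (Fin n) (Fin n) ℂ) a j,
      (J * M) a j = Sum.elim (fun i => M i j) (fun _ => 0) (finSumFinEquiv.symm a) :=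
    fun M a j => by
    rw [Matrix.mul_apply]
    rcases h : finSumFinEquiv.symm a with i | i <;> simp [J, h]
  have hJm' : ∀ (M : Matrix (Fin m) (Fin m) ℂ) a j,
      (J' * M) a j = Sum.elim (fun _ => 0) (fun i => M i j) (finSumFinEquiv.symm a) :=
    fun M a j => by
    rw [Matrix.mul_apply]
    rcases h : finSumFinEquiv.symm a with i | i <;> simp [J', h]
  have e1 := hα.natural n (n + m) π (sumRep π π') hc (continuous_sumRep hc hc') J fun g => by
    ext a j
    rw [hJ, hJm, show sumRep π π' g = sumHom n m (π g, π' g) from rfl, hsum, Equiv.symm_apply_apply]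
    rcases finSumFinEquiv.symm a with i | i <;> simp
  have e2 := hα.natural m (n + m) π' (sumRep π π') hc' (continuous_sumRep hc hc') J' fun g => by
    ext a j
    rw [hJ', hJm', show sumRep π π' g = sumHom n m (π g, π' g) from rfl, hsum,
      Equiv.symm_apply_apply]
    rcases finSumFinEquiv.symm a with i | i <;> simp
  refine Subtype.ext (Matrix.ext fun a b => ?_)
  obtain ⟨c, rfl⟩ := finSumFinEquiv.surjective b
  rw [hsum, Equiv.symm_apply_apply]
  rcases c with j | j
  · rw [← hJ (α (n + m) (sumRep π π') : Matrix (Fin (n + m)) (Fin (n + m)) ℂ) a j, e1, hJm]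
    rcases finSumFinEquiv.symm a with i | i <;> simp
  · rw [← hJ' (α (n + m) (sumRep π π') : Matrix (Fin (n + m)) (Fin (n + m)) ℂ) a j, e2, hJm']
    rcases finSumFinEquiv.symm a with i | i <;> simp

/-- The family respects conjugation. -/
theorem family_conj (hα : IsTannakaFamily α) {n : ℕ} {π : G →* Matrix.unitaryGroup (Fin n) ℂ}
    (hc : Continuous π) : α n ((conjHom n).comp π) = conjHom n (α n π) := by
  set π' := (conjHom n).comp π with hπ'
  have hc' : Continuous π' := (continuous_conjHom n).comp hc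
  let V : Matrix (Fin (n * n)) (Fin 1) ℂ := Matrix.of fun a _ =>
    if (finProdFinEquiv.symm a).1 = (finProdFinEquiv.symm a).2 then 1 else 0
  have hV : ∀ (A B : Matrix.unitaryGroup (Fin n) ℂ) i k,
      ((kronHom n n (A, B) : Matrix (Fin (n * n)) (Fin (n * n)) ℂ) * V) (finProdFinEquiv (i, k)) 0 =
      ∑ j, (A : Matrix (Fin n) (Fin n) ℂ) i j * (B : Matrix (Fin n) (Fin n) ℂ) k j :=
    fun A B i k => by
    rw [Matrix.mul_apply, ← finProdFinEquiv.sum_comp, Fintype.sum_prod_type]
    simp only [V, Matrix.of_apply, kronHom_apply, Equiv.symm_apply_apply]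
    simp
  have hn := hα.natural 1 (n * n) (1 : G →* Matrix.unitaryGroup (Fin 1) ℂ) (kronRep π π')
    continuous_const (continuous_kronRep hc hc') V fun g => by
      ext a b
      obtain ⟨⟨i, k⟩, rfl⟩ := finProdFinEquiv.surjective a
      rw [Subsingleton.elim b 0, show kronRep π π' g = kronHom n n (π g, π' g) from rfl, hV,
        MonoidHom.one_apply, Matrix.UnitaryGroup.one_val, Matrix.mul_one]
      have h := congrFun (congrFun (Matrix.mem_unitaryGroup_iff.1 (π g).2) i) k
      simp only [Matrix.mul_apply, Matrix.star_apply, Matrix.one_apply] at h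
      simp only [V, Matrix.of_apply, Equiv.symm_apply_apply]
      rw [← h]
      rfl
  rw [hα.tensor n n π π' hc hc', family_trivial hα, Matrix.UnitaryGroup.one_val, Matrix.mul_one]
    at hn
  have key : (α n π : Matrix (Fin n) (Fin n) ℂ) *
      (α n π' : Matrix (Fin n) (Fin n) ℂ)ᵀ = 1 := by
    ext i k
    rw [Matrix.mul_apply, Matrix.one_apply]
    simp only [Matrix.transpose_apply]
    rw [← hV, hn]
    simp only [V, Matrix.of_apply, Equiv.symm_apply_apply]
  have h1 : star (α n π : Matrix (Fin n) (Fin n) ℂ) = (α n π' : Matrix (Fin n) (Fin n) ℂ)ᵀ :=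
    left_inv_eq_right_inv (Matrix.mem_unitaryGroup_iff'.1 (α n π).2) key
  refine Subtype.ext (Matrix.ext fun i j => ?_)
  rw [conjHom_apply]
  exact (congrFun (congrFun h1 j) i).symm

/-- `f` is the coefficient `x · σ(g) y` and `a` is the value of the family on it. -/
def Represents (α : ∀ n : ℕ, (G →* Matrix.unitaryGroup (Fin n) ℂ) → Matrix.unitaryGroup (Fin n) ℂ)
    (f : G → ℂ) (a : ℂ) : Prop :=
  ∃ (n : ℕ) (σ : G →* Matrix.unitaryGroup (Fin n) ℂ) (x y : Fin n → ℂ), Continuous σ ∧
    (∀ g, f g = x ⬝ᵥ (σ g : Matrix (Fin n) (Fin n) ℂ) *ᵥ y) ∧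
    a = x ⬝ᵥ (α n σ : Matrix (Fin n) (Fin n) ℂ) *ᵥ y

section measure

variable [MeasurableSpace G] [BorelSpace G] (μ : Measure G) [IsMulLeftInvariant μ]
  [IsProbabilityMeasure μ]

include μ in
/-- **The value of the family on a coefficient function is well defined.** -/
theorem represents_zero_aux (hα : IsTannakaFamily α) {a : ℂ} (h : Represents α 0 a) : a = 0 := by
  haveI := isHaarMeasure_of_invariant μ
  obtain ⟨n, σ, x, y, hc, hf, rfl⟩ := h
  set u : G → Fin n → ℂ := fun g => (σ g : Matrix (Fin n) (Fin n) ℂ) *ᵥ y with hu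
  have hu0 : ∀ g, x ⬝ᵥ u g = 0 := fun g => (hf g).symm
  have cu : ∀ i, Continuous fun g => u g i := fun i => (continuous_apply i).comp
    ((continuous_subtype_val.comp hc).matrix_mulVec continuous_const)
  have cc : ∀ i j, Continuous fun g => u g i * conj (u g j) := fun i j =>
    (cu i).fun_mul (Complex.continuous_conj.comp (cu j))
  have humul : ∀ h g, u (h * g) = (σ h : Matrix (Fin n) (Fin n) ℂ) *ᵥ u g := fun h g => by
    simp only [hu, map_mul, Matrix.UnitaryGroup.mul_val, Matrix.mulVec_mulVec]
  let E : Matrix (Fin n) (Fin n) ℂ := Matrix.of fun i j => ∫ g, u g i * conj (u g j) ∂μ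
  have hE : ∀ h, (σ h : Matrix (Fin n) (Fin n) ℂ) * E = E * (σ h : Matrix (Fin n) (Fin n) ℂ) :=
    fun h => by
    have hinv : ∀ g j, u (h⁻¹ * g) j =
        ∑ b, conj ((σ h : Matrix (Fin n) (Fin n) ℂ) b j) * u g b := fun g j => by
      rw [humul, map_inv]
      rfl
    ext i j
    rw [Matrix.mul_apply, Matrix.mul_apply]
    calc ∑ b, (σ h : Matrix (Fin n) (Fin n) ℂ) i b * E b j
        = ∫ g, u (h * g) i * conj (u g j) ∂μ := by
          simp only [E, Matrix.of_apply, ← integral_const_mul]
          rw [← integral_finsetSum]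
          swap
          · exact fun b _ => integrable_cont μ (continuous_const.fun_mul (cc b j))
          refine integral_congr_ae (Eventually.of_forall fun g => ?_)
          simp only [humul, Matrix.mulVec, dotProduct, Finset.sum_mul, mul_assoc]
      _ = ∫ g, u g i * conj (u (h⁻¹ * g) j) ∂μ := by
          conv_rhs => rw [← integral_mul_left_eq_self _ h]
          simp only [inv_mul_cancel_left]
      _ = ∑ b, E i b * (σ h : Matrix (Fin n) (Fin n) ℂ) b j := by
          simp only [E, Matrix.of_apply, ← integral_mul_const]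
          rw [← integral_finsetSum]
          swap
          · exact fun b _ => integrable_cont μ ((cc i b).fun_mul continuous_const)
          refine integral_congr_ae (Eventually.of_forall fun g => ?_)
          simp only [hinv, _root_.map_sum, map_mul, Complex.conj_conj, Finset.mul_sum]
          exact Finset.sum_congr rfl fun b _ => by ring
  have hxE : x ᵥ* E = 0 := by
    funext j
    simp only [Matrix.vecMul, dotProduct, E, Matrix.of_apply, ← integral_const_mul]
    rw [← integral_finsetSum]
    swap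
    · exact fun i _ => integrable_cont μ (continuous_const.fun_mul (cc i j))
    refine (integral_congr_ae (Eventually.of_forall fun g => ?_)).trans (integral_zero G ℂ)
    show ∑ i, x i * (u g i * conj (u g j)) = 0
    simp only [← mul_assoc, ← Finset.sum_mul]
    rw [show ∑ i, x i * u g i = 0 from hu0 g, zero_mul]
  set w := x ᵥ* (α n σ : Matrix (Fin n) (Fin n) ℂ) with hw
  have hwE : w ᵥ* E = 0 := by
    rw [hw, Matrix.vecMul_vecMul, hα.natural n n σ σ hc hc E hE, ← Matrix.vecMul_vecMul, hxE,
      Matrix.zero_vecMul]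
  have hint : ∫ g, ((‖w ⬝ᵥ u g‖ ^ 2 : ℝ) : ℂ) ∂μ = 0 := by
    have e : ∀ g, ((‖w ⬝ᵥ u g‖ ^ 2 : ℝ) : ℂ) = ∑ j, ∑ i, w i * (u g i * conj (u g j)) * conj (w j) :=
      fun g => by
      rw [Complex.ofReal_pow, ← Complex.mul_conj']
      simp only [dotProduct, _root_.map_sum, map_mul, Finset.mul_sum, Finset.sum_mul]
      exact Finset.sum_congr rfl fun j _ => Finset.sum_congr rfl fun i _ => by ring
    simp only [e]
    rw [integral_finsetSum]
    swap
    · exact fun j _ => integrable_finsetSum _ fun i _ =>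
        integrable_cont μ ((continuous_const.fun_mul (cc i j)).fun_mul continuous_const)
    refine Finset.sum_eq_zero fun j _ => ?_
    rw [integral_finsetSum]
    swap
    · exact fun i _ => integrable_cont μ ((continuous_const.fun_mul (cc i j)).fun_mul continuous_const)
    simp only [integral_mul_const, integral_const_mul, ← Finset.sum_mul]
    have h := congrFun hwE j
    simp only [Matrix.vecMul, dotProduct, E, Matrix.of_apply, Pi.zero_apply] at h
    rw [h, zero_mul]
  rw [integral_complex_ofReal, Complex.ofReal_eq_zero] at hint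
  have hwy : x ⬝ᵥ (α n σ : Matrix (Fin n) (Fin n) ℂ) *ᵥ y = w ⬝ᵥ u 1 := by
    rw [hu, hw]
    simp only [map_one, Matrix.UnitaryGroup.one_val, Matrix.one_mulVec, Matrix.dotProduct_mulVec]
  rw [hwy]
  by_contra hne
  have hcw : Continuous fun g => ‖w ⬝ᵥ u g‖ ^ 2 :=
    ((continuous_const.dotProduct (continuous_pi cu)).norm).pow 2
  exact (Continuous.integral_pos_of_hasCompactSupport_nonneg_nonzero (μ := μ) (x := (1 : G)) hcw
    (HasCompactSupport.of_compactSpace _) (fun g => sq_nonneg _)
    (pow_ne_zero _ (norm_ne_zero_iff.2 hne))).ne' hint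

end measure

theorem represents_zero (hα : IsTannakaFamily α) {a : ℂ} (h : Represents α 0 a) : a = 0 := by
  letI : MeasurableSpace G := borel G
  haveI : BorelSpace G := ⟨rfl⟩
  let K₀ : TopologicalSpace.PositiveCompacts G := ⟨⟨Set.univ, isCompact_univ⟩, by simp⟩
  haveI : IsProbabilityMeasure (haarMeasure K₀) := ⟨haarMeasure_self (K₀ := K₀)⟩
  exact represents_zero_aux (haarMeasure K₀) hα h

theorem represents_const (hα : IsTannakaFamily α) (c : ℂ) : Represents α (fun _ => c) c := by
  refine ⟨1, 1, fun _ => c, fun _ => 1, continuous_const, fun g => ?_, ?_⟩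
  · simp [dotProduct]
  · rw [family_trivial hα]
    simp [dotProduct]

theorem represents_add (hα : IsTannakaFamily α) {f f' : G → ℂ} {a a' : ℂ}
    (h : Represents α f a) (h' : Represents α f' a') :
    Represents α (fun g => f g + f' g) (a + a') := by
  obtain ⟨n, σ, x, y, hc, hf, rfl⟩ := h
  obtain ⟨m, σ', x', y', hc', hf', rfl⟩ := h'
  let X : Fin (n + m) → ℂ := Sum.elim x x' ∘ finSumFinEquiv.symm
  let Y : Fin (n + m) → ℂ := Sum.elim y y' ∘ finSumFinEquiv.symm
  have key : ∀ (A : Matrix.unitaryGroup (Fin n) ℂ) (B : Matrix.unitaryGroup (Fin m) ℂ),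
      x ⬝ᵥ (A : Matrix (Fin n) (Fin n) ℂ) *ᵥ y + x' ⬝ᵥ (B : Matrix (Fin m) (Fin m) ℂ) *ᵥ y' =
      X ⬝ᵥ (sumHom n m (A, B) : Matrix (Fin (n + m)) (Fin (n + m)) ℂ) *ᵥ Y := fun A B => by
    simp only [dotProduct, Matrix.mulVec, sumHom_coe, Matrix.reindex_apply,
      Matrix.submatrix_apply, X, Y, Function.comp_apply, Equiv.symm_apply_apply,
      ← finSumFinEquiv.sum_comp, Fintype.sum_sum_type]
    simp
  refine ⟨_, sumRep σ σ', X, Y, continuous_sumRep hc hc', fun g => ?_, ?_⟩
  · show f g + f' g = _
    rw [hf, hf', key]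
    rfl
  · rw [key, family_sum hα hc hc']

theorem represents_mul (hα : IsTannakaFamily α) {f f' : G → ℂ} {a a' : ℂ}
    (h : Represents α f a) (h' : Represents α f' a') :
    Represents α (fun g => f g * f' g) (a * a') := by
  obtain ⟨n, σ, x, y, hc, hf, rfl⟩ := h
  obtain ⟨m, σ', x', y', hc', hf', rfl⟩ := h'
  let X : Fin (n * m) → ℂ := fun c =>
    x (finProdFinEquiv.symm c).1 * x' (finProdFinEquiv.symm c).2
  let Y : Fin (n * m) → ℂ := fun c =>
    y (finProdFinEquiv.symm c).1 * y' (finProdFinEquiv.symm c).2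
  have key : ∀ (A : Matrix.unitaryGroup (Fin n) ℂ) (B : Matrix.unitaryGroup (Fin m) ℂ),
      (x ⬝ᵥ (A : Matrix (Fin n) (Fin n) ℂ) *ᵥ y) * (x' ⬝ᵥ (B : Matrix (Fin m) (Fin m) ℂ) *ᵥ y') =
      X ⬝ᵥ (kronHom n m (A, B) : Matrix (Fin (n * m)) (Fin (n * m)) ℂ) *ᵥ Y := fun A B => by
    have hs : ∀ F : Fin (n * m) → ℂ, ∑ c, F c = ∑ p : Fin n × Fin m, F (finProdFinEquiv p) :=
      fun F => (finProdFinEquiv.sum_comp F).symm
    simp only [dotProduct, Matrix.mulVec, X, Y, hs,
      Equiv.symm_apply_apply, Fintype.sum_prod_type, kronHom_apply, Finset.sum_mul, Finset.mul_sum]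
    rw [Finset.sum_comm_cycle]
    refine Finset.sum_congr rfl fun i _ => Finset.sum_congr rfl fun k _ => ?_
    rw [Finset.sum_comm]
    refine Finset.sum_congr rfl fun j _ => Finset.sum_congr rfl fun l _ => ?_
    ring
  refine ⟨_, kronRep σ σ', X, Y, continuous_kronRep hc hc', fun g => ?_, ?_⟩
  · show f g * f' g = _
    rw [hf, hf', key]
    rfl
  · rw [key, hα.tensor n m σ σ' hc hc']

theorem represents_var (hα : IsTannakaFamily α) {n : ℕ} {π : G →* Matrix.unitaryGroup (Fin n) ℂ}
    (hc : Continuous π) (v : (Fin n × Fin n) ⊕ (Fin n × Fin n)) :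
    Represents α (fun g => polyVals (π g : Matrix (Fin n) (Fin n) ℂ) v)
      (polyVals (α n π : Matrix (Fin n) (Fin n) ℂ) v) := by
  rcases v with ⟨i, j⟩ | ⟨i, j⟩
  · refine ⟨n, π, Pi.single i 1, Pi.single j 1, hc, fun g => ?_, ?_⟩ <;> simp [polyVals]
  · refine ⟨n, (conjHom n).comp π, Pi.single i 1, Pi.single j 1,
      (continuous_conjHom n).comp hc, fun g => ?_, ?_⟩
    · simp [polyVals, conjHom_apply]
    · rw [family_conj hα hc]
      simp [polyVals, conjHom_apply]

/-- **The family is multiplicative and real on polynomials.** -/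
theorem represents_eval (hα : IsTannakaFamily α) {n : ℕ}
    {π : G →* Matrix.unitaryGroup (Fin n) ℂ} (hc : Continuous π)
    (q : MvPolynomial ((Fin n × Fin n) ⊕ (Fin n × Fin n)) ℂ) :
    Represents α (fun g => MvPolynomial.eval (polyVals (π g : Matrix (Fin n) (Fin n) ℂ)) q)
      (MvPolynomial.eval (polyVals (α n π : Matrix (Fin n) (Fin n) ℂ)) q) := by
  induction q using MvPolynomial.induction_on with
  | C a => simpa only [MvPolynomial.eval_C] using represents_const hα a
  | add p q hp hq => simpa only [map_add] using represents_add hα hp hq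
  | mul_X p v hp =>
    simpa only [map_mul, MvPolynomial.eval_X] using represents_mul hα hp (represents_var hα hc v)

/-- **In each representation the family lies in the image.** -/
theorem family_mem_range (hα : IsTannakaFamily α) {n : ℕ}
    {π : G →* Matrix.unitaryGroup (Fin n) ℂ} (hc : Continuous π) : ∃ g, π g = α n π := by
  by_contra hall
  push Not at hall
  obtain ⟨P, hP0, hP⟩ := exists_separating_poly hc (A := (α n π : Matrix (Fin n) (Fin n) ℂ))
    fun g e => hall g (Subtype.ext e)
  refine hP (represents_zero hα ?_)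
  have h := represents_eval hα hc P
  rwa [show (fun g => MvPolynomial.eval (polyVals (π g : Matrix (Fin n) (Fin n) ℂ)) P) = 0 from
    funext hP0] at h

/-- **Tannaka duality.** -/
theorem existsUnique_eval (hα : IsTannakaFamily α) :
    ∃! g : G, ∀ (n : ℕ) (π : G →* Matrix.unitaryGroup (Fin n) ℂ), Continuous π → α n π = π g := by
  classical
  let I := Σ n : ℕ, {π : G →* Matrix.unitaryGroup (Fin n) ℂ // Continuous π}
  have hdom : ∀ t : Finset I, ∃ (N : ℕ) (ρ : G →* Matrix.unitaryGroup (Fin N) ℂ), Continuous ρ ∧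
      ∀ g, ρ g = α N ρ → ∀ p ∈ t, p.2.1 g = α p.1 p.2.1 := fun t => by
    induction t using Finset.induction_on with
    | empty => exact ⟨1, 1, continuous_const, fun g _ p hp => absurd hp (Finset.notMem_empty p)⟩
    | insert q t hq ih =>
      obtain ⟨N, ρ, hρ, hdom⟩ := ih
      refine ⟨q.1 + N, sumRep q.2.1 ρ, continuous_sumRep q.2.2 hρ, fun g hg p hp => ?_⟩
      rw [family_sum hα q.2.2 hρ] at hg
      have h := congrArg Subtype.val hg
      rw [show sumRep q.2.1 ρ g = sumHom q.1 N (q.2.1 g, ρ g) from rfl, sumHom_coe, sumHom_coe,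
        (Matrix.reindex finSumFinEquiv finSumFinEquiv).injective.eq_iff,
        Matrix.fromBlocks_inj] at h
      rcases Finset.mem_insert.1 hp with rfl | hp
      · exact Subtype.ext h.1
      · exact hdom g (Subtype.ext h.2.2.2) p hp
  obtain ⟨g, -, hg⟩ := isCompact_univ.inter_iInter_nonempty
    (fun p : I => {g : G | p.2.1 g = α p.1 p.2.1})
    (fun p => isClosed_eq p.2.2 continuous_const) fun t => by
      obtain ⟨N, ρ, hρ, hdom⟩ := hdom t
      obtain ⟨g, hg⟩ := family_mem_range hα hρ
      exact ⟨g, trivial, Set.mem_iInter₂.2 fun p hp => hdom g hg p hp⟩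
  refine ⟨g, fun n π hc => (Set.mem_iInter.1 hg ⟨n, π, hc⟩).symm, fun g' hg' => ?_⟩
  by_contra hne
  obtain ⟨f, ⟨n, π, hc, -, i, j, hf⟩, hne'⟩ := exists_coeff_ne hne
  refine hne' ?_
  have h1 : π g = α n π := Set.mem_iInter.1 hg ⟨n, π, hc⟩
  rw [hf, hf, ← hg' n π hc, ← h1]

end FA.PeterWeyl

end
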