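import Fermat.Agent.PeterWeyl.Kernel
import Mathlib.Analysis.Matrix.PosDef
import Mathlib.Analysis.Matrix.Spectrum
import Mathlib.LinearAlgebra.UnitaryGroup
import Mathlib.Topology.Instances.Matrix

/-!
# Weyl's unitarian trick

Averaging `π(g)ᴴ π(g)` over a compact group gives an invariant positive definite matrix `Sᴴ S`, and
conjugation by `S` makes the representation unitary.
-/

set_option autoImplicit false
set_option linter.unusedSectionVars false
set_option linter.style.haveILetI false

noncomputable section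

open MeasureTheory MeasureTheory.Measure Topology Filter
open scoped Matrix ComplexConjugate ComplexOrder

namespace FA.PeterWeyl

/-- A positive definite matrix is `Sᴴ S` with `S` invertible. -/
theorem exists_conjTranspose_mul_self {n : ℕ} {M : Matrix (Fin n) (Fin n) ℂ} (hM : M.PosDef) :
    ∃ S T : Matrix (Fin n) (Fin n) ℂ, S * T = 1 ∧ T * S = 1 ∧ Sᴴ * S = M := by
  set U : Matrix (Fin n) (Fin n) ℂ := (hM.isHermitian.eigenvectorUnitary : Matrix (Fin n) (Fin n) ℂ)
  have hU1 : Uᴴ * U = 1 := Matrix.mem_unitaryGroup_iff'.1 hM.isHermitian.eigenvectorUnitary.2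
  have hU2 : U * Uᴴ = 1 := Matrix.mem_unitaryGroup_iff.1 hM.isHermitian.eigenvectorUnitary.2
  set r : Fin n → ℝ := fun i => Real.sqrt (hM.isHermitian.eigenvalues i)
  have hr : ∀ i, r i ≠ 0 := fun i => (Real.sqrt_pos.2 (hM.eigenvalues_pos i)).ne'
  set D : Matrix (Fin n) (Fin n) ℂ := Matrix.diagonal fun i => (r i : ℂ)
  set D' : Matrix (Fin n) (Fin n) ℂ := Matrix.diagonal fun i => ((r i : ℂ))⁻¹
  have hDD : D * D' = 1 := by
    simp only [D, D', Matrix.diagonal_mul_diagonal]
    rw [← Matrix.diagonal_one]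
    exact congrArg Matrix.diagonal (funext fun i => mul_inv_cancel₀ (by exact_mod_cast hr i))
  have hD'D : D' * D = 1 := mul_eq_one_comm.1 hDD
  have hDs : Dᴴ * D = Matrix.diagonal fun i => ((hM.isHermitian.eigenvalues i : ℝ) : ℂ) := by
    simp only [D, Matrix.diagonal_conjTranspose, Matrix.diagonal_mul_diagonal]
    refine congrArg Matrix.diagonal (funext fun i => ?_)
    simp only [Pi.star_apply, Complex.star_def, Complex.conj_ofReal, ← Complex.ofReal_mul, r,
      Real.mul_self_sqrt (hM.eigenvalues_pos i).le]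
  refine ⟨D * Uᴴ, U * D', ?_, ?_, ?_⟩
  · rw [mul_assoc, ← mul_assoc Uᴴ, hU1, one_mul, hDD]
  · rw [mul_assoc, ← mul_assoc D', hD'D, one_mul, hU2]
  · rw [Matrix.conjTranspose_mul, Matrix.conjTranspose_conjTranspose, mul_assoc, ← mul_assoc Dᴴ,
      hDs, ← mul_assoc]
    exact hM.isHermitian.spectral_theorem.symm

variable {G : Type*} [TopologicalSpace G] [Group G] [IsTopologicalGroup G] [CompactSpace G]
  [T2Space G]

section measure

variable [MeasurableSpace G] [BorelSpace G] (μ : Measure G) [IsMulLeftInvariant μ]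
  [IsProbabilityMeasure μ]

include μ in
theorem exists_unitary_conj_aux {n : ℕ} (π : G →* Matrix (Fin n) (Fin n) ℂ) (hc : Continuous π) :
    ∃ (S T : Matrix (Fin n) (Fin n) ℂ) (ρ : G →* Matrix.unitaryGroup (Fin n) ℂ),
      S * T = 1 ∧ T * S = 1 ∧ Continuous ρ ∧ ∀ g, (ρ g : Matrix (Fin n) (Fin n) ℂ) = S * π g * T := by
  haveI := isHaarMeasure_of_invariant μ
  haveI := isMulRightInvariant_compact μ
  have ent : ∀ i j, Continuous fun g => π g i j := fun i j => (continuous_apply_apply i j).comp hc
  have hP : ∀ i j, Continuous fun g => ((π g)ᴴ * π g) i j := fun i j =>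
    (continuous_apply_apply i j).comp (hc.matrix_conjTranspose.matrix_mul hc)
  set M : Matrix (Fin n) (Fin n) ℂ := Matrix.of fun i j => ∫ g, ((π g)ᴴ * π g) i j ∂μ with hMdef
  have hherm : M.IsHermitian := by
    ext i j
    simp only [hMdef, Matrix.conjTranspose_apply, Matrix.of_apply, Complex.star_def, ← integral_conj]
    refine integral_congr_ae (Eventually.of_forall fun g => ?_)
    simp only [Matrix.mul_apply, Matrix.conjTranspose_apply, Complex.star_def, _root_.map_sum,
      map_mul, Complex.conj_conj]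
    exact Finset.sum_congr rfl fun a _ => mul_comm _ _
  have hquad : ∀ x : Fin n → ℂ,
      star x ⬝ᵥ M *ᵥ x = ((∫ g, ∑ a, ‖(π g *ᵥ x) a‖ ^ 2 ∂μ : ℝ) : ℂ) := fun x => by
    have e : ∀ g, ((∑ a, ‖(π g *ᵥ x) a‖ ^ 2 : ℝ) : ℂ) = star x ⬝ᵥ ((π g)ᴴ * π g) *ᵥ x := fun g => by
      rw [← Matrix.mulVec_mulVec, Matrix.dotProduct_mulVec, ← Matrix.star_mulVec]
      simp [dotProduct, Complex.conj_mul']
    rw [← integral_complex_ofReal]
    simp only [e]
    simp only [hMdef, dotProduct, Matrix.mulVec, Matrix.of_apply, ← integral_const_mul,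
      ← integral_mul_const, Finset.mul_sum]
    rw [integral_finsetSum]
    swap
    · exact fun i _ => integrable_finsetSum _ fun j _ =>
        integrable_cont μ (continuous_const.fun_mul ((hP i j).fun_mul continuous_const))
    refine Finset.sum_congr rfl fun i _ => ?_
    rw [integral_finsetSum]
    exact fun j _ => integrable_cont μ (continuous_const.fun_mul ((hP i j).fun_mul continuous_const))
  have hpos : M.PosDef := Matrix.posDef_iff_dotProduct_mulVec.2 ⟨hherm, fun x hx => by
    rw [hquad, Complex.zero_lt_real]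
    obtain ⟨a, ha⟩ := Function.ne_iff.1 hx
    refine Continuous.integral_pos_of_hasCompactSupport_nonneg_nonzero (x := (1 : G))
      (continuous_finsetSum _ fun b _ => (((continuous_apply b).comp
        (hc.matrix_mulVec continuous_const)).norm).pow 2)
      (HasCompactSupport.of_compactSpace _) (fun g => Finset.sum_nonneg fun b _ => sq_nonneg _) ?_
    rw [map_one, Matrix.one_mulVec]
    refine ne_of_gt (Finset.sum_pos' (fun b _ => sq_nonneg _) ⟨a, Finset.mem_univ a, ?_⟩)
    have : 0 < ‖x a‖ := norm_pos_iff.2 ha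
    positivity⟩
  have hinv : ∀ h, (π h)ᴴ * M * π h = M := fun h => by
    ext i j
    simp only [hMdef, Matrix.mul_apply, Matrix.of_apply, ← integral_const_mul, ← integral_mul_const,
      Finset.sum_mul]
    conv_rhs => rw [← integral_mul_right_eq_self _ h]
    rw [Finset.sum_congr rfl fun b _ => (integral_finsetSum _ fun a _ => ?_).symm,
      ← integral_finsetSum _ fun b _ => ?_]
    · refine integral_congr_ae (Eventually.of_forall fun g => ?_)
      have e := congrFun (congrFun (show (π h)ᴴ * ((π g)ᴴ * π g) * π h =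
        (π (g * h))ᴴ * π (g * h) by
          rw [map_mul, Matrix.conjTranspose_mul]; simp only [mul_assoc]) i) j
      simpa only [Matrix.mul_apply, Finset.mul_sum, Finset.sum_mul] using e
    · exact integrable_finsetSum _ fun a _ => integrable_cont μ (by fun_prop)
    · exact integrable_cont μ (by fun_prop)
  obtain ⟨S, T, hST, hTS, hSM⟩ := exists_conjTranspose_mul_self hpos
  have hmem : ∀ g, S * π g * T ∈ Matrix.unitaryGroup (Fin n) ℂ := fun g => by
    rw [Matrix.mem_unitaryGroup_iff', Matrix.star_eq_conjTranspose]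
    calc (S * π g * T)ᴴ * (S * π g * T) = Tᴴ * ((π g)ᴴ * (Sᴴ * S) * π g) * T := by
          simp only [Matrix.conjTranspose_mul, mul_assoc]
      _ = (S * T)ᴴ * (S * T) := by
          rw [hSM, hinv, ← hSM]
          simp only [Matrix.conjTranspose_mul, mul_assoc]
      _ = 1 := by rw [hST, Matrix.conjTranspose_one, one_mul]
  refine ⟨S, T,
    { toFun := fun g => ⟨S * π g * T, hmem g⟩
      map_one' := Subtype.ext (by simp [hST])
      map_mul' := fun g h => Subtype.ext (by
        rw [Matrix.UnitaryGroup.mul_val]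
        show S * π (g * h) * T = S * π g * T * (S * π h * T)
        rw [map_mul, show S * π g * T * (S * π h * T) = S * π g * (T * S) * π h * T by
          simp only [mul_assoc], hTS, mul_one, mul_assoc S (π g) (π h)]) },
    hST, hTS, ((continuous_const.matrix_mul hc).matrix_mul continuous_const).subtype_mk _,
    fun g => rfl⟩

end measure

/-- **Weyl's unitarian trick.** -/
theorem exists_unitary_conj {n : ℕ} (π : G →* Matrix (Fin n) (Fin n) ℂ) (hc : Continuous π) :
    ∃ (S T : Matrix (Fin n) (Fin n) ℂ) (ρ : G →* Matrix.unitaryGroup (Fin n) ℂ),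
      S * T = 1 ∧ T * S = 1 ∧ Continuous ρ ∧ ∀ g, (ρ g : Matrix (Fin n) (Fin n) ℂ) = S * π g * T := by
  letI : MeasurableSpace G := borel G
  haveI : BorelSpace G := ⟨rfl⟩
  let K₀ : TopologicalSpace.PositiveCompacts G := ⟨⟨Set.univ, isCompact_univ⟩, by simp⟩
  haveI : IsProbabilityMeasure (haarMeasure K₀) := ⟨haarMeasure_self (K₀ := K₀)⟩
  exact exists_unitary_conj_aux (haarMeasure K₀) π hc

end FA.PeterWeyl

end
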